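import Fermat.Agent.ECP.TorsionPsi
import Fermat.Prelude.Def_FLTPrelim_GaloisRep

set_option autoImplicit false

/-!
# Upper bound for the number of `p`-torsion points
-/

namespace Fermat.Agent.ECP

open WeierstrassCurve WeierstrassCurve.Affine WeierstrassCurve.Affine.Point Polynomial

universe u

variable {F : Type u} [Field F] {W : WeierstrassCurve.Affine F} [DecidableEq F]

/-- the `x`-coordinate of a nonzero `p`-torsion point is a root of the `p`-division polynomial. -/
theorem preΨ'_eval_eq_zero {p : ℕ} (hp : p.Prime) (hp2 : p ≠ 2) {P : W.Point} (hP : P ≠ 0)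
    (hpP : p • P = 0) : (W.preΨ' p).eval (xc P) = 0 := by
  have h1 := wc_eq_zero_of_order (P := P) p hp.two_le (by
    intro k hk1 hkp hk
    apply hP
    have hco : Nat.Coprime k p := by
      rw [Nat.coprime_comm, Nat.Prime.coprime_iff_not_dvd hp]
      exact fun hdvd => absurd (Nat.le_of_dvd hk1 hdvd) (not_le.mpr hkp)
    have h2 : addOrderOf P ∣ Nat.gcd k p :=
      Nat.dvd_gcd (addOrderOf_dvd_of_nsmul_eq_zero hk) (addOrderOf_dvd_of_nsmul_eq_zero hpP)
    rw [hco, Nat.dvd_one] at h2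
    exact AddMonoid.addOrderOf_eq_one_iff.mp h2) hpP
  rw [wc_eq_preΨ' hP, if_neg (by
    rw [Nat.not_even_iff_odd]; exact hp.odd_of_ne_two hp2), mul_one] at h1
  exact h1

omit [DecidableEq F] in
lemma fiber_card (x : F) :
    {P : W.Point | P ≠ 0 ∧ xc P = x}.Finite ∧ {P : W.Point | P ≠ 0 ∧ xc P = x}.ncard ≤ 2 := by
  by_cases h : ∃ P : W.Point, P ≠ 0 ∧ xc P = x
  · obtain ⟨P, hP, hx⟩ := h
    have hsub : {P : W.Point | P ≠ 0 ∧ xc P = x} ⊆ {P, -P} := by
      rintro Q ⟨hQ, hQx⟩
      rcases (xc_eq_iff hQ hP).mp (hQx.trans hx.symm) with h | h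
      · exact Or.inl h
      · exact Or.inr h
    have hfin : ({P, -P} : Set W.Point).Finite := Set.toFinite _
    exact ⟨hfin.subset hsub, (Set.ncard_le_ncard hsub hfin).trans
      ((Set.ncard_insert_le _ _).trans (by rw [Set.ncard_singleton]))⟩
  · have : {P : W.Point | P ≠ 0 ∧ xc P = x} = ∅ := by
      ext Q; simp only [Set.mem_setOf_eq, Set.mem_empty_iff_false, iff_false]
      exact fun hQ => h ⟨Q, hQ⟩
    rw [this]
    simp

theorem torsion_card_le {p : ℕ} (hp : p.Prime) (hp2 : p ≠ 2) (hpF : (p : F) ≠ 0) :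
    {P : W.Point | p • P = 0}.Finite ∧ {P : W.Point | p • P = 0}.ncard ≤ p ^ 2 := by
  classical
  have hne : W.preΨ' p ≠ 0 := W.preΨ'_ne_zero hpF
  have hodd : ¬ Even p := by rw [Nat.not_even_iff_odd]; exact hp.odd_of_ne_two hp2
  set R : Finset F := (W.preΨ' p).roots.toFinset with hR
  have hRcard : 2 * R.card ≤ p ^ 2 - 1 := by
    have h1 : R.card ≤ (W.preΨ' p).natDegree :=
      (Multiset.toFinset_card_le _).trans (Polynomial.card_roots' _)
    rw [W.natDegree_preΨ' hpF, if_neg hodd] at h1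
    have h2 := Nat.div_mul_le_self (p ^ 2 - 1) 2
    omega
  have hsub : {P : W.Point | p • P = 0} ⊆
      insert 0 (⋃ x ∈ R, {P : W.Point | P ≠ 0 ∧ xc P = x}) := by
    intro P hP
    by_cases h0 : P = 0
    · exact Or.inl h0
    · right
      simp only [Set.mem_iUnion, Set.mem_setOf_eq]
      refine ⟨xc P, ?_, h0, rfl⟩
      rw [hR, Multiset.mem_toFinset, Polynomial.mem_roots hne]
      exact preΨ'_eval_eq_zero hp hp2 h0 hP
  have hfinU : (⋃ x ∈ R, {P : W.Point | P ≠ 0 ∧ xc P = x}).Finite :=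
    R.finite_toSet.biUnion fun x _ => (fiber_card x).1
  have hcardU : (⋃ x ∈ R, {P : W.Point | P ≠ 0 ∧ xc P = x}).ncard ≤ 2 * R.card := by
    clear_value R
    clear hsub hRcard hR
    induction R using Finset.induction with
    | empty => simp
    | insert a s ha ih =>
      rw [Finset.set_biUnion_insert, Finset.card_insert_of_notMem ha]
      have h1 : (⋃ x ∈ s, {P : W.Point | P ≠ 0 ∧ xc P = x}).Finite :=
        s.finite_toSet.biUnion fun x _ => (fiber_card x).1
      have h2 := ih h1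
      have h3 := Set.ncard_union_le {P : W.Point | P ≠ 0 ∧ xc P = a}
        (⋃ x ∈ s, {P : W.Point | P ≠ 0 ∧ xc P = x})
      have h4 := (fiber_card (W := W) a).2
      omega
  have hfinI := hfinU.insert (0 : W.Point)
  refine ⟨hfinI.subset hsub, (Set.ncard_le_ncard hsub hfinI).trans ?_⟩
  have h5 := Set.ncard_insert_le (0 : W.Point) (⋃ x ∈ R, {P : W.Point | P ≠ 0 ∧ xc P = x})
  have h6 : 1 ≤ p ^ 2 := Nat.one_le_pow _ _ hp.pos
  omega

end Fermat.Agent.ECP
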