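import Mathlib

set_option autoImplicit false

/-!
# Leading coefficient times a product of roots is integral

If a polynomial over a valued field has integral coefficients and splits, then the product of its
leading coefficient with the product of any sub-multiset of its roots is integral.
-/

namespace Fermat.Agent.ECP

open Polynomial

variable {K Γ₀ : Type*} [Field K] [LinearOrderedCommGroupWithZero Γ₀] (v : Valuation K Γ₀)

/-- all coefficients are integral. -/
def IntCoeff (f : K[X]) : Prop := ∀ n, v (f.coeff n) ≤ 1

variable {v}

lemma intCoeff_of_X_sub_C_mul {r : K} {g : K[X]} (hr : v r ≤ 1)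
    (h : IntCoeff v ((X - C r) * g)) : IntCoeff v g := by
  have key : ∀ k n, n + k = g.natDegree + 1 → v (g.coeff n) ≤ 1 := by
    intro k
    induction k with
    | zero =>
      intro n hn
      rw [coeff_eq_zero_of_natDegree_lt (by omega), map_zero]
      exact zero_le
    | succ k ih =>
      intro n hn
      have h1 := ih (n + 1) (by omega)
      have h2 := h (n + 1)
      rw [sub_mul, coeff_sub, coeff_X_mul, coeff_C_mul] at h2
      have e : g.coeff n = (g.coeff n - r * g.coeff (n + 1)) + r * g.coeff (n + 1) := by ring
      rw [e]
      refine (v.map_add _ _).trans (max_le h2 ?_)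
      rw [map_mul]
      exact mul_le_one' hr h1
  intro n
  rcases Nat.lt_or_ge (g.natDegree) n with hn | hn
  · rw [coeff_eq_zero_of_natDegree_lt hn, map_zero]
    exact zero_le
  · exact key (g.natDegree + 1 - n) n (by omega)

lemma intCoeff_of_one_sub_C_mul {u : K} {g : K[X]} (hu : v u ≤ 1)
    (h : IntCoeff v ((1 - C u * X) * g)) : IntCoeff v g := by
  intro n
  induction n with
  | zero =>
    have h2 := h 0
    rw [sub_mul, coeff_sub, one_mul, mul_assoc, coeff_C_mul, coeff_X_mul_zero, mul_zero,
      sub_zero] at h2
    exact h2
  | succ n ih =>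
    have h2 := h (n + 1)
    rw [sub_mul, coeff_sub, one_mul, mul_assoc, coeff_C_mul, coeff_X_mul] at h2
    have e : g.coeff (n + 1) = (g.coeff (n + 1) - u * g.coeff n) + u * g.coeff n := by ring
    rw [e]
    refine (v.map_add _ _).trans (max_le h2 ?_)
    rw [map_mul]
    exact mul_le_one' hu ih

theorem map_mul_prod_le_one_aux (R : Multiset K) : ∀ (c : K),
    IntCoeff v (C c * (R.map fun r => X - C r).prod) → ∀ S ≤ R, v (c * S.prod) ≤ 1 := by
  induction R using Multiset.induction with
  | empty =>
    intro c h S hS
    rw [Multiset.le_zero] at hS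
    have := h 0
    simpa [hS] using this
  | cons r R ih =>
    intro c h S hS
    rw [Multiset.map_cons, Multiset.prod_cons] at h
    rcases le_or_gt (v r) 1 with hr | hr
    · have h1 : IntCoeff v (C c * (R.map fun r => X - C r).prod) := by
        apply intCoeff_of_X_sub_C_mul hr
        convert h using 1; ring
      by_cases hrS : r ∈ S
      · obtain ⟨T, rfl⟩ := Multiset.exists_cons_of_mem hrS
        rw [Multiset.cons_le_cons_iff] at hS
        have := ih c h1 T hS
        rw [Multiset.prod_cons]
        have e : c * (r * T.prod) = r * (c * T.prod) := by ring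
        rw [e, map_mul]
        exact mul_le_one' hr this
      · rw [Multiset.le_cons_of_notMem hrS] at hS
        exact ih c h1 S hS
    · have hr0 : r ≠ 0 := by rintro rfl; rw [map_zero] at hr; exact absurd hr (not_lt.mpr zero_le)
      have h1 : IntCoeff v (C (-r * c) * (R.map fun r => X - C r).prod) := by
        apply intCoeff_of_one_sub_C_mul (u := r⁻¹)
        · rw [map_inv₀]
          exact (inv_lt_one_of_one_lt₀ hr).le
        · convert h using 1
          have : (C r⁻¹ : K[X]) * C r = 1 := by rw [← C_mul, inv_mul_cancel₀ hr0, C_1]
          rw [C_mul, C_neg]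
          linear_combination (X * C c * (R.map fun r => X - C r).prod) * this
      by_cases hrS : r ∈ S
      · obtain ⟨T, rfl⟩ := Multiset.exists_cons_of_mem hrS
        rw [Multiset.cons_le_cons_iff] at hS
        have := ih _ h1 T hS
        rw [Multiset.prod_cons]
        have e : c * (r * T.prod) = -(-r * c * T.prod) := by ring
        rw [e, Valuation.map_neg]
        exact this
      · rw [Multiset.le_cons_of_notMem hrS] at hS
        have := ih _ h1 S hS
        have e : c * S.prod = -r⁻¹ * (-r * c * S.prod) := by field_simp
        rw [e, map_mul, Valuation.map_neg, map_inv₀]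
        exact mul_le_one' (inv_lt_one_of_one_lt₀ hr).le this

/-- If `f` has integral coefficients and splits, `leadingCoeff f * ∏ S` is integral for any
sub-multiset `S` of the roots of `f`. -/
theorem map_leadingCoeff_mul_prod_le_one [IsAlgClosed K] {f : K[X]} (hf : IntCoeff v f)
    {S : Multiset K} (hS : S ≤ f.roots) : v (f.leadingCoeff * S.prod) ≤ 1 := by
  apply map_mul_prod_le_one_aux f.roots f.leadingCoeff ?_ S hS
  rwa [← (IsAlgClosed.splits f).eq_prod_roots]

end Fermat.Agent.ECP
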