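import Fermat.Agent.ECP.Count
import Fermat.Agent.ECP.RootProd
import Fermat.Agent.EC.Nonsing

set_option autoImplicit false

/-!
# Existence of `p`-torsion points, and integrality of torsion points
-/

namespace Fermat.Agent.ECP

open WeierstrassCurve WeierstrassCurve.Affine WeierstrassCurve.Affine.Point Polynomial
open Fermat.Agent.EC (IsInt)

variable {K Γ₀ : Type*} [Field K] [LinearOrderedCommGroupWithZero Γ₀] {v : Valuation K Γ₀}
  {W : WeierstrassCurve.Affine K}

section Int

lemma val_natCast_le (n : ℕ) : v (n : K) ≤ 1 := EC.val_natCast_le_one v n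

/-- integral model -/
lemma exists_integral_model (hW : IsInt v W) :
    ∃ W₀ : WeierstrassCurve v.integer, W₀.map v.integer.subtype = W := by
  refine ⟨⟨⟨W.a₁, hW.a₁⟩, ⟨W.a₂, hW.a₂⟩, ⟨W.a₃, hW.a₃⟩, ⟨W.a₄, hW.a₄⟩, ⟨W.a₆, hW.a₆⟩⟩, ?_⟩
  rfl

lemma intCoeff_map (g : v.integer[X]) : IntCoeff v (g.map v.integer.subtype) := by
  intro n
  rw [coeff_map]
  exact (g.coeff n).2

lemma intCoeff_preΨ' (hW : IsInt v W) (n : ℕ) : IntCoeff v (W.preΨ' n) := by
  obtain ⟨W₀, rfl⟩ := exists_integral_model hW
  rw [WeierstrassCurve.map_preΨ']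
  exact intCoeff_map _

lemma intCoeff_Ψ₂Sq (hW : IsInt v W) : IntCoeff v W.Ψ₂Sq := by
  obtain ⟨W₀, rfl⟩ := exists_integral_model hW
  rw [WeierstrassCurve.map_Ψ₂Sq]
  exact intCoeff_map _

lemma IntCoeff.eval_le {f : K[X]} (hf : IntCoeff v f) {x : K} (hx : v x ≤ 1) :
    v (f.eval x) ≤ 1 := by
  rw [Polynomial.eval_eq_sum_range]
  refine v.map_sum_le fun i _ => ?_
  rw [map_mul, map_pow]
  exact mul_le_one' (hf i) (pow_le_one' hx i)

end Int

lemma val_nat_eq_one_of_lt {p : ℕ} (hp : p.Prime) (hvp : v (p : K) < 1) {n : ℕ} (hn : 0 < n)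
    (hlt : n < p) : v (n : K) = 1 := by
  refine le_antisymm (val_natCast_le n) ?_
  by_contra hcon
  rw [not_le] at hcon
  have hco : IsCoprime (p : ℤ) (n : ℤ) := by
    rw [Nat.isCoprime_iff_coprime, Nat.Prime.coprime_iff_not_dvd hp]
    exact fun h => absurd (Nat.le_of_dvd hn h) (not_le.mpr hlt)
  obtain ⟨s, t, h⟩ := hco
  have h1 : v ((s : K) * (p : K) + (t : K) * (n : K)) = 1 := by
    have : (s : K) * (p : K) + (t : K) * (n : K) = 1 := by
      exact_mod_cast congrArg (Int.cast : ℤ → K) h
    rw [this, _root_.map_one]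
  have h2 : v ((s : K) * (p : K) + (t : K) * (n : K)) < 1 := by
    refine (v.map_add _ _).trans_lt (max_lt ?_ ?_)
    · rw [map_mul]; exact lt_of_le_of_lt (mul_le_of_le_one_left' (EC.val_intCast_le_one v s)) hvp
    · rw [map_mul]; exact lt_of_le_of_lt (mul_le_of_le_one_left' (EC.val_intCast_le_one v t)) hcon
  exact absurd h1 h2.ne

/-- a root of a polynomial with integral coefficients and unit leading coefficient is integral. -/
lemma root_le_one [IsAlgClosed K] {f : K[X]} (hf : IntCoeff v f) (hlc : v f.leadingCoeff = 1)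
    {r : K} (hr : f.eval r = 0) : v r ≤ 1 := by
  have hf0 : f ≠ 0 := by rintro rfl; simp at hlc
  have h := map_leadingCoeff_mul_prod_le_one hf (S := {r}) (by
    rw [Multiset.singleton_le, Polynomial.mem_roots hf0]; exact hr)
  rwa [Multiset.prod_singleton, map_mul, hlc, one_mul] at h

/-- The division polynomials of odd index have unit value at a `2`-torsion `x`-coordinate with
unit value of `Ψ₃`. -/
lemma val_preΨ'_eval_two_torsion {e : K} (h2 : W.Ψ₂Sq.eval e = 0)
    (h3 : v (W.Ψ₃.eval e) = 1) (n : ℕ) (hn : ¬ Even n) : v ((W.preΨ' n).eval e) = 1 := by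
  induction n using Nat.strong_induction_on with
  | _ n ih =>
    rcases Nat.lt_or_ge n 5 with hlt | hge
    · interval_cases n
      · exact absurd (by decide) hn
      · simp
      · exact absurd (by decide) hn
      · simpa using h3
      · exact absurd (by decide) hn
    · rw [Nat.not_even_iff_odd] at hn
      obtain ⟨k, rfl⟩ := hn
      obtain ⟨m, rfl⟩ : ∃ m, k = m + 2 := ⟨k - 2, by omega⟩
      rw [WeierstrassCurve.preΨ'_odd]
      by_cases hm : Even m
      · have e1 := ih (m + 1) (by omega) (by simpa [Nat.even_add_one] using hm)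
        have e3 := ih (m + 3) (by omega) (by
          simpa [show m + 3 = m + 2 + 1 from rfl, Nat.even_add_one] using hm)
        simp only [if_pos hm, eval_sub, eval_mul, eval_pow, h2, mul_one]
        rw [zero_pow two_ne_zero, mul_zero, zero_sub, Valuation.map_neg, map_mul, map_pow, e1, e3,
          one_pow, one_mul]
      · have hm' : Odd m := Nat.not_even_iff_odd.mp hm
        have e2 := ih (m + 2) (by omega) (by
          rw [Nat.not_even_iff_odd]; exact hm'.add_even even_two)
        have e4 := ih (m + 4) (by omega) (by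
          rw [Nat.not_even_iff_odd]; exact hm'.add_even (by decide))
        simp only [if_neg hm, eval_sub, eval_mul, eval_pow, h2, mul_one]
        rw [zero_pow two_ne_zero, mul_zero, sub_zero, map_mul, map_pow, e2, e4,
          one_pow, one_mul]

variable [DecidableEq K]

/-- torsion points of order `n < p` have integral `x`-coordinates above `p`. -/
lemma xc_le_one_of_order_lt [IsAlgClosed K] (hW : IsInt v W) {p : ℕ} (hp : p.Prime)
    (hp5 : 5 ≤ p) (hvp : v (p : K) < 1) {P : W.Point} {n : ℕ} (hn2 : 2 ≤ n) (hnp : n < p)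
    (hlt : ∀ k : ℕ, 1 ≤ k → k < n → k • P ≠ 0) (hn : n • P = 0) : v (xc P) ≤ 1 := by
  have h1 : P ≠ 0 := by simpa using hlt 1 le_rfl (by omega)
  have h0 := wc_eq_zero_of_order n hn2 hlt hn
  have hvn : v (n : K) = 1 := val_nat_eq_one_of_lt hp hvp (by omega) hnp
  have hn0 : (n : K) ≠ 0 := by
    intro h; rw [h, _root_.map_zero] at hvn; exact zero_ne_one hvn
  have hlc : v (W.preΨ' n).leadingCoeff = 1 := by
    rw [W.leadingCoeff_preΨ' hn0]
    split_ifs with heven
    · obtain ⟨m, rfl⟩ := heven.two_dvd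
      have h2m : v (((2 * m / 2 : ℕ)) : K) = 1 := by
        rw [Nat.mul_div_cancel_left _ two_pos]
        exact val_nat_eq_one_of_lt hp hvp (by omega) (by omega)
      exact_mod_cast h2m
    · exact_mod_cast hvn
  rw [wc_eq_preΨ' h1] at h0
  rcases mul_eq_zero.mp h0 with h | h
  · exact root_le_one (intCoeff_preΨ' hW n) hlc h
  · split_ifs at h with heven
    · have h4 : v (4 : K) = 1 := by
        exact_mod_cast val_nat_eq_one_of_lt (v := v) hp hvp (n := 4) (by norm_num) (by omega)
      have h40 : (4 : K) ≠ 0 := by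
        intro h; rw [h, _root_.map_zero] at h4; exact zero_ne_one h4
      refine root_le_one (intCoeff_Ψ₂Sq hW) ?_ ((tc_sq' h1).symm.trans (by rw [h]; ring))
      rw [W.leadingCoeff_Ψ₂Sq h40, h4]
    · exact absurd h one_ne_zero

/-- Existence of a point of order `p` (in the kernel of reduction above `p`). -/
theorem exists_torsion [IsAlgClosed K] (hW : IsInt v W) (hΔ : W.Δ ≠ 0) {p : ℕ} (hp : p.Prime)
    (hp5 : 5 ≤ p) (hvp : v (p : K) < 1) (hpK : (p : K) ≠ 0) {e : K} (he : v e ≤ 1)
    (h2 : W.Ψ₂Sq.eval e = 0) (h3 : v (W.Ψ₃.eval e) = 1) :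
    ∃ P : W.Point, P ≠ 0 ∧ p • P = 0 := by
  have hodd : ¬ Even p := by
    rw [Nat.not_even_iff_odd]; exact hp.odd_of_ne_two (by omega)
  have hlc : (W.preΨ' p).leadingCoeff = (p : K) := by
    rw [W.leadingCoeff_preΨ' hpK, if_neg hodd]
  -- there is a nonintegral root
  obtain ⟨r, hr, hvr⟩ : ∃ r, (W.preΨ' p).eval r = 0 ∧ 1 < v r := by
    by_contra hcon
    push Not at hcon
    have he1 := val_preΨ'_eval_two_torsion h2 h3 p hodd
    have hsplit := (IsAlgClosed.splits (W.preΨ' p)).eq_prod_roots
    rw [hsplit, eval_mul, eval_C, hlc, map_mul] at he1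
    have hle : v (eval e ((W.preΨ' p).roots.map fun a => X - C a).prod) ≤ 1 := by
      rw [eval_multiset_prod, Multiset.map_map, map_multiset_prod, Multiset.map_map]
      refine Multiset.prod_induction (fun x => x ≤ 1) _ (fun a b ha hb => mul_le_one' ha hb)
        le_rfl ?_
      intro x hx
      obtain ⟨a, ha, rfl⟩ := Multiset.mem_map.mp hx
      have := (Polynomial.mem_roots'.mp ha).2
      simp only [Function.comp_apply, eval_sub, eval_X, eval_C]
      exact (v.map_sub _ _).trans (max_le he (hcon a this))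
    have : v (p : K) * v (eval e ((W.preΨ' p).roots.map fun a => X - C a).prod) < 1 :=
      lt_of_le_of_lt (mul_le_of_le_one_right' hle) hvp
    exact absurd he1 this.ne
  -- a point with this `x`-coordinate
  obtain ⟨y, hy⟩ : ∃ y, W.Equation r y := by
    let q : K[X] := X ^ 2 + C (W.a₁ * r + W.a₃) * X - C (r ^ 3 + W.a₂ * r ^ 2 + W.a₄ * r + W.a₆)
    have hq : q.degree ≠ 0 := by
      have : q.degree = 2 := by
        have : q = C 1 * X ^ 2 + C (W.a₁ * r + W.a₃) * X +
            C (-(r ^ 3 + W.a₂ * r ^ 2 + W.a₄ * r + W.a₆)) := by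
          simp only [q, C_1, one_mul, C_neg]; ring
        rw [this]
        exact degree_quadratic one_ne_zero
      rw [this]; norm_num
    obtain ⟨y, hy⟩ := IsAlgClosed.exists_root q hq
    refine ⟨y, ?_⟩
    rw [Affine.equation_iff]
    have : q.eval y = 0 := hy
    simp only [q, eval_sub, eval_add, eval_mul, eval_pow, eval_X, eval_C] at this
    linear_combination this
  have hns : W.Nonsingular r y := (Affine.equation_iff_nonsingular_of_Δ_ne_zero hΔ).mp hy
  set P : W.Point := Point.some r y hns with hPdef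
  have hP0 : P ≠ 0 := Point.some_ne_zero hns
  refine ⟨P, hP0, ?_⟩
  by_contra hpP
  by_cases hex : ∃ n : ℕ, 1 ≤ n ∧ n ≤ p ∧ n • P = 0
  · classical
    obtain ⟨h1, h4, h5⟩ := Nat.find_spec hex
    have hmin : ∀ k : ℕ, 1 ≤ k → k < Nat.find hex → k • P ≠ 0 := by
      intro k hk1 hk2 hk3
      exact Nat.find_min hex hk2 ⟨hk1, by omega, hk3⟩
    set n := Nat.find hex
    have hnp : n < p := by
      refine lt_of_le_of_ne h4 ?_
      rintro h; rw [h] at h5; exact hpP h5
    have hn2 : 2 ≤ n := by
      rcases Nat.lt_or_ge n 2 with h | h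
      · have : n = 1 := by omega
        rw [this, one_smul] at h5
        exact absurd h5 hP0
      · exact h
    have := xc_le_one_of_order_lt hW hp hp5 hvp hn2 hnp hmin h5
    exact absurd this (not_le.mpr hvr)
  · push Not at hex
    have h := (nd (P := P) p hex p (by omega) le_rfl).1
    rw [wc_eq_preΨ' hP0, if_neg hodd, mul_one] at h
    exact h hr

end Fermat.Agent.ECP
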