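import Fermat.Agent.ECP.Node
import Fermat.Agent.EC.FreyNoTorsion

set_option autoImplicit false

/-!
# Local data of the Frey curve
-/

namespace Fermat.Agent.ECP

open WeierstrassCurve WeierstrassCurve.Affine WeierstrassCurve.Affine.Point
open Fermat.Agent.EC (IsInt InE1 xX xZ TrivMod NS comp nrm IsKummer)

section Coeff

variable (P : FreyPackage) (K : Type*) [Field K] [CharZero K] [Algebra ℚ K]

lemma frey_a₁ : (P.freyCurve⁄K).a₁ = 1 := by
  change algebraMap ℚ K 1 = 1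
  simp

lemma frey_a₂ : (P.freyCurve⁄K).a₂ = ((P.b : K) ^ P.p - 1 - (P.a : K) ^ P.p) / 4 := by
  change algebraMap ℚ K (((P.b : ℚ) ^ P.p - 1 - (P.a : ℚ) ^ P.p) / 4) = _
  simp

lemma frey_a₃ : (P.freyCurve⁄K).a₃ = 0 := by
  change algebraMap ℚ K 0 = 0
  simp

lemma frey_a₄ : (P.freyCurve⁄K).a₄ = -((P.a : K) ^ P.p) * ((P.b : K) ^ P.p) / 16 := by
  change algebraMap ℚ K (-((P.a : ℚ) ^ P.p) * ((P.b : ℚ) ^ P.p) / 16) = _
  simp only [map_div₀, map_mul, map_neg, map_pow, map_intCast, map_ofNat]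

lemma frey_a₆ : (P.freyCurve⁄K).a₆ = 0 := by
  change algebraMap ℚ K 0 = 0
  simp

lemma frey_b₂ : (P.freyCurve⁄K).b₂ = (P.b : K) ^ P.p - (P.a : K) ^ P.p := by
  rw [WeierstrassCurve.b₂, frey_a₁, frey_a₂]; ring

lemma frey_b₄ : (P.freyCurve⁄K).b₄ = -((P.a : K) ^ P.p) * ((P.b : K) ^ P.p) / 8 := by
  rw [WeierstrassCurve.b₄, frey_a₁, frey_a₃, frey_a₄]; ring

lemma frey_b₆ : (P.freyCurve⁄K).b₆ = 0 := by
  rw [WeierstrassCurve.b₆, frey_a₃, frey_a₆]; ring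

lemma frey_b₈ : (P.freyCurve⁄K).b₈ = -(-((P.a : K) ^ P.p) * ((P.b : K) ^ P.p) / 16) ^ 2 := by
  rw [WeierstrassCurve.b₈, frey_a₁, frey_a₂, frey_a₃, frey_a₄, frey_a₆]; ring

lemma frey_flt : (P.a : K) ^ P.p + (P.b : K) ^ P.p = (P.c : K) ^ P.p := by
  exact_mod_cast congrArg (Int.cast : ℤ → K) P.hFLT

lemma frey_Δ : (P.freyCurve⁄K).Δ =
    ((P.a : K) ^ P.p) ^ 2 * ((P.b : K) ^ P.p) ^ 2 * ((P.c : K) ^ P.p) ^ 2 / 256 := by
  rw [WeierstrassCurve.Δ, frey_b₂, frey_b₄, frey_b₆, frey_b₈, ← frey_flt]; ring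

lemma frey_Δ_ne_zero : (P.freyCurve⁄K).Δ ≠ 0 := by
  rw [frey_Δ]
  have ha0 : (P.a : K) ≠ 0 := by exact_mod_cast P.ha0
  have hb0 : (P.b : K) ≠ 0 := by exact_mod_cast P.hb0
  have hc0 : (P.c : K) ≠ 0 := by exact_mod_cast P.hc0
  have : (256 : K) ≠ 0 := by norm_num
  positivity

end Coeff

section Int

variable (P : FreyPackage)

lemma frey_two_dvd_b : (2 : ℤ) ∣ P.b := (ZMod.intCast_zmod_eq_zero_iff_dvd P.b 2).mp P.hb2

lemma frey_not_two_dvd_a : ¬ (2 : ℤ) ∣ P.a := by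
  intro h
  have h3 := dvd_gcd h (frey_two_dvd_b P)
  rw [P.hgcdab] at h3
  norm_num at h3

lemma frey_four_dvd : (4 : ℤ) ∣ P.b ^ P.p - 1 - P.a ^ P.p := by
  have hp5 := P.hp5
  have hb4 : (4 : ℤ) ∣ P.b ^ P.p := by
    have : (2 : ℤ) ^ 2 ∣ P.b ^ P.p :=
      (pow_dvd_pow_of_dvd (frey_two_dvd_b P) 2).trans (pow_dvd_pow _ (by omega))
    simpa using this
  have ha4 : (4 : ℤ) ∣ 1 + P.a ^ P.p := by
    have h3 : (P.a : ZMod 4) = 3 := P.ha4
    have : ((1 + P.a ^ P.p : ℤ) : ZMod 4) = 0 := by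
      push_cast
      rw [h3]
      obtain ⟨m, hm⟩ := P.hp_odd
      rw [hm, pow_succ, pow_mul]
      have : (3 : ZMod 4) ^ 2 = 1 := by decide
      rw [this, one_pow, one_mul]
      decide
    exact_mod_cast (ZMod.intCast_zmod_eq_zero_iff_dvd _ 4).mp this
  have : P.b ^ P.p - 1 - P.a ^ P.p = P.b ^ P.p - (1 + P.a ^ P.p) := by ring
  rw [this]
  exact dvd_sub hb4 ha4

/-- `32 ∣ b ^ p`. -/
lemma frey_dvd_b_pow : (32 : ℤ) ∣ P.b ^ P.p := by
  have hp5 := P.hp5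
  have : (2 : ℤ) ^ 5 ∣ P.b ^ P.p :=
    (pow_dvd_pow_of_dvd (frey_two_dvd_b P) 5).trans (pow_dvd_pow _ hp5)
  simpa using this

end Int

section Val

variable (P : FreyPackage) {K Γ₀ : Type*} [Field K] [CharZero K] [Algebra ℚ K]
  [LinearOrderedCommGroupWithZero Γ₀] (v : Valuation K Γ₀)

/-- the Frey model is integral everywhere. -/
theorem frey_isInt : IsInt v (P.freyCurve⁄K) := by
  refine ⟨?_, ?_, ?_, ?_, ?_⟩
  · rw [frey_a₁, Valuation.map_one]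
  · obtain ⟨c, hc⟩ := frey_four_dvd P
    have : (P.freyCurve⁄K).a₂ = (c : K) := by
      rw [frey_a₂]
      have h6 : ((P.b ^ P.p - 1 - P.a ^ P.p : ℤ) : K) = ((4 * c : ℤ) : K) := by rw [hc]
      push_cast at h6
      rw [h6, mul_div_cancel_left₀ _ (by norm_num : (4 : K) ≠ 0)]
    rw [this]
    exact EC.val_intCast_le_one v c
  · rw [frey_a₃, Valuation.map_zero]; exact zero_le
  · obtain ⟨c, hc⟩ := frey_dvd_b_pow P
    have : (P.freyCurve⁄K).a₄ = ((-(P.a ^ P.p) * (2 * c) : ℤ) : K) := by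
      rw [frey_a₄]
      have h6 : ((P.b ^ P.p : ℤ) : K) = ((32 * c : ℤ) : K) := by rw [hc]
      push_cast at h6 ⊢
      rw [h6]
      ring
    rw [this]
    exact EC.val_intCast_le_one v _
  · rw [frey_a₆, Valuation.map_zero]; exact zero_le

/-- node at `(0,0)` -/
lemma frey_node_zero (h1 : v (-((P.a : K) ^ P.p) * ((P.b : K) ^ P.p) / 16) < 1)
    (h2 : v ((P.b : K) ^ P.p - (P.a : K) ^ P.p) = 1) :
    NodeData v (P.freyCurve⁄K) 0 0 (-((P.a : K) ^ P.p) * ((P.b : K) ^ P.p) / 16) where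
  isInt := frey_isInt P v
  e_le := by rw [Valuation.map_zero]; exact zero_le
  eqn := by rw [frey_a₁, frey_a₂, frey_a₃, frey_a₄, frey_a₆]; ring
  two_t := by rw [frey_a₁, frey_a₃]; ring
  beta := by rw [frey_a₁, frey_a₂, frey_a₄]; ring
  beta_pos := by
    have ha0 : (P.a : K) ≠ 0 := by exact_mod_cast P.ha0
    have hb0 : (P.b : K) ≠ 0 := by exact_mod_cast P.hb0
    have h16 : (16 : K) ≠ 0 := by norm_num
    refine lt_of_le_of_ne zero_le (Ne.symm (v.ne_zero_iff.mpr ?_))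
    exact div_ne_zero (mul_ne_zero (neg_ne_zero.mpr (pow_ne_zero _ ha0)) (pow_ne_zero _ hb0)) h16
  beta_lt := h1
  unit := by rw [frey_b₂, mul_zero, add_zero]; exact h2

/-- node at the point with `x = a^p/4`. -/
lemma frey_node_c (h4 : v (4 : K) = 1)
    (h1 : v (((P.a : K) ^ P.p) * ((P.c : K) ^ P.p) / 16) < 1)
    (h2 : v ((P.a : K) ^ P.p + (P.c : K) ^ P.p) = 1) :
    NodeData v (P.freyCurve⁄K) ((P.a : K) ^ P.p / 4) (-((P.a : K) ^ P.p) / 8)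
      (((P.a : K) ^ P.p) * ((P.c : K) ^ P.p) / 16) where
  isInt := frey_isInt P v
  e_le := by
    rw [map_div₀, h4, div_one, map_pow]
    exact pow_le_one' (EC.val_intCast_le_one v _) _
  eqn := by rw [frey_a₁, frey_a₂, frey_a₃, frey_a₄, frey_a₆]; ring
  two_t := by rw [frey_a₁, frey_a₃]; ring
  beta := by rw [frey_a₁, frey_a₂, frey_a₄, ← frey_flt]; ring
  beta_pos := by
    have ha0 : (P.a : K) ≠ 0 := by exact_mod_cast P.ha0
    have hc0 : (P.c : K) ≠ 0 := by exact_mod_cast P.hc0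
    have h16 : (16 : K) ≠ 0 := by norm_num
    refine lt_of_le_of_ne zero_le (Ne.symm (v.ne_zero_iff.mpr ?_))
    exact div_ne_zero (mul_ne_zero (pow_ne_zero _ ha0) (pow_ne_zero _ hc0)) h16
  beta_lt := h1
  unit := by
    have : (P.freyCurve⁄K).b₂ + 12 * ((P.a : K) ^ P.p / 4) = (P.a : K) ^ P.p + (P.c : K) ^ P.p := by
      rw [frey_b₂, ← frey_flt]; ring
    rw [this]; exact h2

end Val

section Local

local notation "Qb" => AlgebraicClosure ℚ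

variable (P : FreyPackage)

/-- Local structure at every place. -/
theorem frey_local {q : ℕ} (hq : q.Prime) {A : ValuationSubring Qb} (hA : A.LiesOverPrime q) :
    ∃ E0 : AddSubgroup (P.freyCurve⁄Qb).Point,
      E1 A.valuation (frey_isInt P A.valuation) ≤ E0 ∧
      ∀ σ ∈ A.inertiaSubgroupIn ℚ,
        (∀ Q ∈ E0, σ • Q - Q ∈ E1 A.valuation (frey_isInt P A.valuation)) ∧
        (∀ x : Submodule.torsionBy ℤ (P.freyCurve⁄Qb).Point P.p,
          σ • (x : (P.freyCurve⁄Qb).Point) - x ∈ E0) := by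
  set v := A.valuation with hvdef
  have hvq : v (q : Qb) < 1 := A.mem_nonunits_iff.mp hA
  have hqZ : Prime (q : ℤ) := Int.prime_iff_natAbs_prime.mpr (by simpa using hq)
  have hp0 : P.p ≠ 0 := P.hp0
  -- a node gives the structure
  have hnode : ∀ e t β : Qb, (∃ e' t' : ℚ, e = algebraMap ℚ Qb e' ∧ t = algebraMap ℚ Qb t') →
      NodeData v (P.freyCurve⁄Qb) e t β → ∃ E0 : AddSubgroup (P.freyCurve⁄Qb).Point,
      E1 v (frey_isInt P v) ≤ E0 ∧
      ∀ σ ∈ A.inertiaSubgroupIn ℚ,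
        (∀ Q ∈ E0, σ • Q - Q ∈ E1 v (frey_isInt P v)) ∧
        (∀ x : Submodule.torsionBy ℤ (P.freyCurve⁄Qb).Point P.p,
          σ • (x : (P.freyCurve⁄Qb).Point) - x ∈ E0) := by
    rintro e t β ⟨e', t', he, ht⟩ h
    refine ⟨h.E0, h.E1_le_E0, fun σ hσ => ?_⟩
    have hTM : TrivMod v σ := EC.trivMod_of_mem_inertia A hσ
    have hσe : σ e = e := by rw [he]; exact σ.commutes e'
    have hσt : σ t = t := by rw [ht]; exact σ.commutes t'
    refine ⟨fun Q hQ => h.smul_sub_mem_E1 hTM hQ, fun x => ?_⟩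
    exact h.smul_sub_mem_E0_of_torsion hTM (fun x => valuation_smul_eq A hσ x) hσe hσt P.hp_odd
      (nsmul_coe_eq_zero x)
  have cab : ¬ ((q : ℤ) ∣ P.a ∧ (q : ℤ) ∣ P.b) := by
    rintro ⟨h1, h2⟩
    have h3 := dvd_gcd h1 h2
    rw [P.hgcdab] at h3
    exact hqZ.not_isUnit (isUnit_of_dvd_one h3)
  have cac : ¬ ((q : ℤ) ∣ P.a ∧ (q : ℤ) ∣ P.c) := by
    rintro ⟨h1, h2⟩
    have h3 := dvd_gcd h1 h2
    rw [P.hgcdac] at h3
    exact hqZ.not_isUnit (isUnit_of_dvd_one h3)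
  by_cases hq2 : q = 2
  · subst hq2
    have hv2 : v (2 : Qb) < 1 := by exact_mod_cast hvq
    have hva : v (P.a : Qb) = 1 := EC.val_odd hv2 (frey_not_two_dvd_a P)
    have hvb : v (P.b : Qb) < 1 := EC.val_even hv2 (frey_two_dvd_b P)
    refine hnode 0 0 (-((P.a : Qb) ^ P.p) * ((P.b : Qb) ^ P.p) / 16) ⟨0, 0, by simp, by simp⟩
      (frey_node_zero P v ?_ ?_)
    · obtain ⟨c, hc⟩ := frey_dvd_b_pow P
      have : -((P.a : Qb) ^ P.p) * ((P.b : Qb) ^ P.p) / 16 = 2 * ((-(P.a ^ P.p) * c : ℤ) : Qb) := by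
        have h6 : ((P.b ^ P.p : ℤ) : Qb) = ((32 * c : ℤ) : Qb) := by rw [hc]
        push_cast at h6 ⊢
        rw [h6]
        ring
      rw [this, map_mul]
      exact lt_of_le_of_lt (mul_le_of_le_one_right' (EC.val_intCast_le_one v _)) hv2
    · rw [Valuation.map_sub_eq_of_lt_right v, map_pow, hva, one_pow]
      rw [map_pow, map_pow, hva, one_pow]
      exact pow_lt_one₀ zero_le hvb hp0
  have hv2 : v (2 : Qb) = 1 := by
    have : ¬ (q : ℤ) ∣ (2 : ℤ) := by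
      intro h
      exact hq2 ((Nat.prime_dvd_prime_iff_eq hq Nat.prime_two).mp (by exact_mod_cast h))
    exact_mod_cast S05.val_int_eq_one hq hvq this
  have hv4 : v (4 : Qb) = 1 := by
    have : (4 : Qb) = 2 ^ 2 := by norm_num
    rw [this, map_pow, hv2, one_pow]
  have hv16 : v (16 : Qb) = 1 := by
    have : (16 : Qb) = 2 ^ 4 := by norm_num
    rw [this, map_pow, hv2, one_pow]
  by_cases hqa : (q : ℤ) ∣ P.a
  · have hva1 : v (P.a : Qb) < 1 := S05.val_int_lt_one hvq hqa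
    have hvb1 : v (P.b : Qb) = 1 := S05.val_int_eq_one hq hvq (fun h => cab ⟨hqa, h⟩)
    have hA1 : v ((P.a : Qb) ^ P.p) < 1 := by rw [map_pow]; exact pow_lt_one₀ zero_le hva1 hp0
    have hB1 : v ((P.b : Qb) ^ P.p) = 1 := by rw [map_pow, hvb1, one_pow]
    refine hnode 0 0 (-((P.a : Qb) ^ P.p) * ((P.b : Qb) ^ P.p) / 16) ⟨0, 0, by simp, by simp⟩
      (frey_node_zero P v ?_ ?_)
    · rw [map_div₀, hv16, div_one, map_mul, Valuation.map_neg, hB1, mul_one]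
      exact hA1
    · rw [Valuation.map_sub_eq_of_lt_left v, hB1]
      rw [hB1]; exact hA1
  by_cases hqb : (q : ℤ) ∣ P.b
  · have hvb1 : v (P.b : Qb) < 1 := S05.val_int_lt_one hvq hqb
    have hva1 : v (P.a : Qb) = 1 := S05.val_int_eq_one hq hvq hqa
    have hB1 : v ((P.b : Qb) ^ P.p) < 1 := by rw [map_pow]; exact pow_lt_one₀ zero_le hvb1 hp0
    have hA1 : v ((P.a : Qb) ^ P.p) = 1 := by rw [map_pow, hva1, one_pow]
    refine hnode 0 0 (-((P.a : Qb) ^ P.p) * ((P.b : Qb) ^ P.p) / 16) ⟨0, 0, by simp, by simp⟩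
      (frey_node_zero P v ?_ ?_)
    · rw [map_div₀, hv16, div_one, map_mul, Valuation.map_neg, hA1, one_mul]
      exact hB1
    · rw [Valuation.map_sub_eq_of_lt_right v, hA1]
      rw [hA1]; exact hB1
  by_cases hqc : (q : ℤ) ∣ P.c
  · have hvc1 : v (P.c : Qb) < 1 := S05.val_int_lt_one hvq hqc
    have hva1 : v (P.a : Qb) = 1 := S05.val_int_eq_one hq hvq hqa
    have hC1 : v ((P.c : Qb) ^ P.p) < 1 := by rw [map_pow]; exact pow_lt_one₀ zero_le hvc1 hp0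
    have hA1 : v ((P.a : Qb) ^ P.p) = 1 := by rw [map_pow, hva1, one_pow]
    refine hnode ((P.a : Qb) ^ P.p / 4) (-((P.a : Qb) ^ P.p) / 8)
      (((P.a : Qb) ^ P.p) * ((P.c : Qb) ^ P.p) / 16)
      ⟨(P.a : ℚ) ^ P.p / 4, -((P.a : ℚ) ^ P.p) / 8, by simp, by simp⟩
      (frey_node_c P v hv4 ?_ ?_)
    · rw [map_div₀, hv16, div_one, map_mul, hA1, one_mul]
      exact hC1
    · rw [Valuation.map_add_eq_of_lt_left v, hA1]
      rw [hA1]; exact hC1
  · -- good reduction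
    refine ⟨⊤, le_top, fun σ hσ => ⟨fun Q _ => ?_, fun x => AddSubgroup.mem_top _⟩⟩
    have hTM : TrivMod v σ := EC.trivMod_of_mem_inertia A hσ
    have hva1 : v (P.a : Qb) = 1 := S05.val_int_eq_one hq hvq hqa
    have hvb1 : v (P.b : Qb) = 1 := S05.val_int_eq_one hq hvq hqb
    have hvc1 : v (P.c : Qb) = 1 := S05.val_int_eq_one hq hvq hqc
    have h256 : v (256 : Qb) = 1 := by
      have : (256 : Qb) = 2 ^ 8 := by norm_num
      rw [this, map_pow, hv2, one_pow]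
    have hΔ : v (P.freyCurve⁄Qb).Δ = 1 := by
      rw [frey_Δ, map_div₀, h256, div_one]
      simp only [map_mul, map_pow, hva1, hvb1, hvc1, one_pow, one_mul]
    refine EC.smul_sub_inE1 (frey_isInt P v) hTM Q (fun h => ?_)
    rcases Q with _ | ⟨x, y, h'⟩
    · simp [← zero_def] at h
    · exact (frey_isInt P v).ns_of_Δ hΔ (by simpa using h)

/-- there is a nonzero `p`-torsion point. -/
theorem frey_exists_torsion : ∃ x : (P.freyCurve⁄Qb).Point, x ≠ 0 ∧ P.p • x = 0 := by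
  obtain ⟨A, hA⟩ := Fermat.Agent.Frob.exists_liesOverPrime Qb P.pp
  set v := A.valuation with hvdef
  have hq : (P.p).Prime := P.pp
  have hp5 := P.hp5
  have hvq : v ((P.p : ℕ) : Qb) < 1 := A.mem_nonunits_iff.mp hA
  have hqZ : Prime ((P.p : ℕ) : ℤ) := Int.prime_iff_natAbs_prime.mpr (by simpa using hq)
  have hpK : ((P.p : ℕ) : Qb) ≠ 0 := by exact_mod_cast P.hp0
  have cab : ¬ (((P.p : ℕ) : ℤ) ∣ P.a ∧ ((P.p : ℕ) : ℤ) ∣ P.b) := by
    rintro ⟨h1, h2⟩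
    have h3 := dvd_gcd h1 h2
    rw [P.hgcdab] at h3
    exact hqZ.not_isUnit (isUnit_of_dvd_one h3)
  have cac : ¬ (((P.p : ℕ) : ℤ) ∣ P.a ∧ ((P.p : ℕ) : ℤ) ∣ P.c) := by
    rintro ⟨h1, h2⟩
    have h3 := dvd_gcd h1 h2
    rw [P.hgcdac] at h3
    exact hqZ.not_isUnit (isUnit_of_dvd_one h3)
  have cbc : ¬ (((P.p : ℕ) : ℤ) ∣ P.b ∧ ((P.p : ℕ) : ℤ) ∣ P.c) := by
    rintro ⟨h1, h2⟩
    have h3 := dvd_gcd h1 h2
    rw [P.hgcdbc] at h3
    exact hqZ.not_isUnit (isUnit_of_dvd_one h3)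
  have hv2 : v (2 : Qb) = 1 := by
    have : ¬ ((P.p : ℕ) : ℤ) ∣ (2 : ℤ) := by
      intro h
      have h2 := (Nat.prime_dvd_prime_iff_eq hq Nat.prime_two).mp (by exact_mod_cast h)
      omega
    exact_mod_cast S05.val_int_eq_one hq hvq this
  have hv4 : v (4 : Qb) = 1 := by
    have : (4 : Qb) = 2 ^ 2 := by norm_num
    rw [this, map_pow, hv2, one_pow]
  have hv16 : v (16 : Qb) = 1 := by
    have : (16 : Qb) = 2 ^ 4 := by norm_num
    rw [this, map_pow, hv2, one_pow]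
  have hpsi2 : ∀ e : Qb, (P.freyCurve⁄Qb).Ψ₂Sq.eval e =
      4 * e * (e - (P.a : Qb) ^ P.p / 4) * (e + (P.b : Qb) ^ P.p / 4) := by
    intro e
    rw [WeierstrassCurve.Ψ₂Sq, frey_b₂, frey_b₄, frey_b₆]
    simp only [Polynomial.eval_add, Polynomial.eval_mul, Polynomial.eval_pow, Polynomial.eval_C,
      Polynomial.eval_X, Polynomial.eval_ofNat]
    ring
  have hpsi3 : ∀ e : Qb, (P.freyCurve⁄Qb).Ψ₃.eval e =
      3 * e ^ 4 + ((P.b : Qb) ^ P.p - (P.a : Qb) ^ P.p) * e ^ 3 +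
      3 * (-((P.a : Qb) ^ P.p) * ((P.b : Qb) ^ P.p) / 8) * e ^ 2 +
      -(-((P.a : Qb) ^ P.p) * ((P.b : Qb) ^ P.p) / 16) ^ 2 := by
    intro e
    rw [WeierstrassCurve.Ψ₃, frey_b₂, frey_b₄, frey_b₆, frey_b₈]
    simp only [Polynomial.eval_add, Polynomial.eval_mul, Polynomial.eval_pow, Polynomial.eval_C,
      Polynomial.eval_X, Polynomial.eval_ofNat]
    ring
  by_cases hqa : ((P.p : ℕ) : ℤ) ∣ P.a
  · have hvb1 : v (P.b : Qb) = 1 := S05.val_int_eq_one hq hvq (fun h => cab ⟨hqa, h⟩)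
    have hvc1 : v (P.c : Qb) = 1 := S05.val_int_eq_one hq hvq (fun h => cac ⟨hqa, h⟩)
    refine exists_torsion (frey_isInt P v) (frey_Δ_ne_zero P Qb) hq hp5 hvq hpK
      (e := -((P.b : Qb) ^ P.p) / 4) ?_ ?_ ?_
    · rw [map_div₀, hv4, div_one, Valuation.map_neg, map_pow, hvb1, one_pow]
    · rw [hpsi2]; ring
    · rw [hpsi3]
      have : 3 * (-((P.b : Qb) ^ P.p) / 4) ^ 4 +
          ((P.b : Qb) ^ P.p - (P.a : Qb) ^ P.p) * (-((P.b : Qb) ^ P.p) / 4) ^ 3 +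
          3 * (-((P.a : Qb) ^ P.p) * ((P.b : Qb) ^ P.p) / 8) * (-((P.b : Qb) ^ P.p) / 4) ^ 2 +
          -(-((P.a : Qb) ^ P.p) * ((P.b : Qb) ^ P.p) / 16) ^ 2 =
          -(((P.b : Qb) ^ P.p) * ((P.c : Qb) ^ P.p) / 16) ^ 2 := by
        rw [← frey_flt]; ring
      rw [this, Valuation.map_neg, map_pow, map_div₀, hv16, div_one, map_mul, map_pow, map_pow,
        hvb1, hvc1]
      simp
  by_cases hqb : ((P.p : ℕ) : ℤ) ∣ P.b
  · have hva1 : v (P.a : Qb) = 1 := S05.val_int_eq_one hq hvq hqa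
    have hvc1 : v (P.c : Qb) = 1 := S05.val_int_eq_one hq hvq (fun h => cbc ⟨hqb, h⟩)
    refine exists_torsion (frey_isInt P v) (frey_Δ_ne_zero P Qb) hq hp5 hvq hpK
      (e := ((P.a : Qb) ^ P.p) / 4) ?_ ?_ ?_
    · rw [map_div₀, hv4, div_one, map_pow, hva1, one_pow]
    · rw [hpsi2]; ring
    · rw [hpsi3]
      have : 3 * (((P.a : Qb) ^ P.p) / 4) ^ 4 +
          ((P.b : Qb) ^ P.p - (P.a : Qb) ^ P.p) * (((P.a : Qb) ^ P.p) / 4) ^ 3 +
          3 * (-((P.a : Qb) ^ P.p) * ((P.b : Qb) ^ P.p) / 8) * (((P.a : Qb) ^ P.p) / 4) ^ 2 +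
          -(-((P.a : Qb) ^ P.p) * ((P.b : Qb) ^ P.p) / 16) ^ 2 =
          -(((P.a : Qb) ^ P.p) * ((P.c : Qb) ^ P.p) / 16) ^ 2 := by
        rw [← frey_flt]; ring
      rw [this, Valuation.map_neg, map_pow, map_div₀, hv16, div_one, map_mul, map_pow, map_pow,
        hva1, hvc1]
      simp
  · have hva1 : v (P.a : Qb) = 1 := S05.val_int_eq_one hq hvq hqa
    have hvb1 : v (P.b : Qb) = 1 := S05.val_int_eq_one hq hvq hqb
    refine exists_torsion (frey_isInt P v) (frey_Δ_ne_zero P Qb) hq hp5 hvq hpK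
      (e := 0) ?_ ?_ ?_
    · simp
    · rw [hpsi2]; ring
    · rw [hpsi3]
      have : 3 * (0 : Qb) ^ 4 +
          ((P.b : Qb) ^ P.p - (P.a : Qb) ^ P.p) * (0 : Qb) ^ 3 +
          3 * (-((P.a : Qb) ^ P.p) * ((P.b : Qb) ^ P.p) / 8) * (0 : Qb) ^ 2 +
          -(-((P.a : Qb) ^ P.p) * ((P.b : Qb) ^ P.p) / 16) ^ 2 =
          -(((P.a : Qb) ^ P.p) * ((P.b : Qb) ^ P.p) / 16) ^ 2 := by
        ring
      rw [this, Valuation.map_neg, map_pow, map_div₀, hv16, div_one, map_mul, map_pow, map_pow,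
        hva1, hvb1]
      simp

end Local

end Fermat.Agent.ECP
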