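import Mathlib

set_option autoImplicit false

/-!
# Lines in a two-dimensional `𝔽_p`-vector space
-/

namespace Fermat.Agent.ECP

variable {p : ℕ} [hp : Fact p.Prime] {T : Type*} [AddCommGroup T] [Module (ZMod p) T] [Finite T]

lemma zmod_smul_eq (c : ZMod p) (x : T) : c • x = (c.val : ℕ) • x := by
  conv_lhs => rw [← ZMod.natCast_zmod_val c]
  rw [Nat.cast_smul_eq_nsmul]

theorem finrank_of_card_le (hcard : Nat.card T ≤ p ^ 2) : Module.finrank (ZMod p) T ≤ 2 := by
  have h := Module.natCard_eq_pow_finrank (K := ZMod p) (V := T)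
  rw [Nat.card_zmod] at h
  rw [h] at hcard
  exact (Nat.pow_le_pow_iff_right hp.out.one_lt).mp hcard

variable {N : Submodule (ZMod p) T}

theorem finrank_eq_one_and_two (hcard : Nat.card T ≤ p ^ 2) (hbot : N ≠ ⊥) (htop : N ≠ ⊤) :
    Module.finrank (ZMod p) N = 1 ∧ Module.finrank (ZMod p) T = 2 := by
  have h2 := finrank_of_card_le (p := p) hcard
  have h3 : Module.finrank (ZMod p) N < Module.finrank (ZMod p) T :=
    Submodule.finrank_lt htop
  have h1 : 0 < Module.finrank (ZMod p) N := by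
    rw [Module.finrank_pos_iff]
    exact Submodule.nontrivial_iff_ne_bot.mpr hbot
  omega

theorem exists_nsmul_eq (hcard : Nat.card T ≤ p ^ 2) (hbot : N ≠ ⊥) (htop : N ≠ ⊤)
    {n m : T} (hn : n ∈ N) (hn0 : n ≠ 0) (hm : m ∈ N) : ∃ k : ℕ, m = k • n := by
  have h1 := (finrank_eq_one_and_two hcard hbot htop).1
  have h2 := (finrank_eq_one_iff_of_nonzero' (⟨n, hn⟩ : N) (fun h => hn0 (congrArg Subtype.val h))).mp
    h1 ⟨m, hm⟩
  obtain ⟨c, hc⟩ := h2
  refine ⟨c.val, ?_⟩
  rw [← zmod_smul_eq]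
  exact (congrArg Subtype.val hc).symm

theorem exists_add_nsmul_eq (hcard : Nat.card T ≤ p ^ 2) (hbot : N ≠ ⊥) (htop : N ≠ ⊤)
    {R : T} (hR : R ∉ N) (Q : T) : ∃ n ∈ N, ∃ k : ℕ, Q = n + k • R := by
  have h1 := finrank_eq_one_and_two hcard hbot htop
  have hlt : N < N ⊔ Submodule.span (ZMod p) {R} := by
    refine lt_of_le_of_ne le_sup_left ?_
    intro h
    apply hR
    rw [h]
    exact Submodule.mem_sup_right (Submodule.mem_span_singleton_self R)
  have h2 := Submodule.finrank_lt_finrank_of_lt hlt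
  have h3 : N ⊔ Submodule.span (ZMod p) {R} = ⊤ := by
    apply Submodule.eq_top_of_finrank_eq
    have := Submodule.finrank_le (N ⊔ Submodule.span (ZMod p) {R})
    omega
  have h4 : Q ∈ N ⊔ Submodule.span (ZMod p) {R} := by rw [h3]; exact Submodule.mem_top
  obtain ⟨n, hn, r, hr, hnr⟩ := Submodule.mem_sup.mp h4
  obtain ⟨c, rfl⟩ := Submodule.mem_span_singleton.mp hr
  exact ⟨n, hn, c.val, by rw [← zmod_smul_eq, hnr]⟩

end Fermat.Agent.ECP
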