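import Fermat.Agent.ECP.LocalGal
import Fermat.Agent.ECP.Exists
import Fermat.Agent.EC.Inertia
import Fermat.Agent.S05
import Fermat.Agent.Frob.QbarInst

set_option autoImplicit false

/-!
# The kernel of reduction above `p` and a stable line

`W'` over `ℚ`, `K = ℚ̄`. Let `N` be a Galois stable line of the `p`-torsion. Let `c` be the product of
the `x`-coordinates of the nonzero elements of `N`, a rational number. For any place over `p`:
if `c` is integral, `N ∩ E₁ = 0`; otherwise `E₁[p] = N`.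
-/

namespace Fermat.Agent.ECP

open WeierstrassCurve WeierstrassCurve.Affine WeierstrassCurve.Affine.Point
open Fermat.Agent.EC (IsInt InE1 xX xZ)

local notation "Qb" => AlgebraicClosure ℚ

section E1

variable {K Γ₀ : Type*} [Field K] [LinearOrderedCommGroupWithZero Γ₀] {v : Valuation K Γ₀}
  {W : WeierstrassCurve.Affine K}

lemma inE1_zero : InE1 v (xX (W := W)) xZ 0 := by
  simp [InE1]

lemma inE1_iff {P : W.Point} (hP : P ≠ 0) : InE1 v (xX (W := W)) xZ P ↔ 1 < v (xc P) := by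
  obtain ⟨x, y, h, rfl⟩ := exists_eq_some hP
  simp [InE1]

variable [DecidableEq K]

variable (v) in
/-- The kernel of reduction. -/
def E1 (hW : IsInt v W) : AddSubgroup W.Point where
  carrier := {P | InE1 v (xX (W := W)) xZ P}
  zero_mem' := inE1_zero
  add_mem' {P Q} hP hQ := ((EC.isKummer W).inE1_add_sub v hW.b₂ hW.b₄ hW.b₆ hW.b₈ hP hQ).1
  neg_mem' {P} hP := by
    have := ((EC.isKummer W).inE1_add_sub v hW.b₂ hW.b₄ hW.b₆ hW.b₈ inE1_zero hP).2
    rwa [zero_sub] at this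

lemma mem_E1_iff (hW : IsInt v W) {P : W.Point} : P ∈ E1 v hW ↔ InE1 v (xX (W := W)) xZ P := Iff.rfl

lemma mem_E1_iff' (hW : IsInt v W) {P : W.Point} (hP : P ≠ 0) : P ∈ E1 v hW ↔ 1 < v (xc P) :=
  inE1_iff hP

end E1

section Rat

variable {K Γ₀ : Type*} [Field K] [CharZero K] [Algebra ℚ K] [LinearOrderedCommGroupWithZero Γ₀]
  {v : Valuation K Γ₀}

omit [CharZero K] [Algebra ℚ K] in
lemma val_nat_eq_one_of_not_dvd {p : ℕ} (hp : p.Prime) (hvp : v (p : K) < 1) {n : ℕ}
    (hn : ¬ p ∣ n) : v (n : K) = 1 := by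
  have := S05.val_int_eq_one (v := v) hp hvp (n := (n : ℤ)) (by exact_mod_cast hn)
  simpa using this

/-- For a rational number, integrality at a place over `p` only depends on `p`. -/
lemma val_rat_le_one_iff {p : ℕ} (hp : p.Prime) (hvp : v (p : K) < 1) (r : ℚ) :
    v (algebraMap ℚ K r) ≤ 1 ↔ ¬ p ∣ r.den := by
  have e : algebraMap ℚ K r = (r.num : K) / (r.den : K) := by
    conv_lhs => rw [← Rat.num_div_den r]
    simp
  have hden0 : (r.den : K) ≠ 0 := by exact_mod_cast r.den_ne_zero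
  constructor
  · intro h hd
    have hnum : ¬ (p : ℤ) ∣ r.num := by
      intro hn
      have h1 : p ∣ r.num.natAbs := Int.natCast_dvd.mp hn
      have h2 : p ∣ Nat.gcd r.num.natAbs r.den := Nat.dvd_gcd h1 hd
      rw [r.reduced] at h2
      exact hp.one_lt.ne' (Nat.dvd_one.mp h2)
    have h1 : v (r.num : K) = 1 := S05.val_int_eq_one hp hvp hnum
    have h2 : v (r.den : K) < 1 := by
      have := S05.val_int_lt_one (v := v) hvp (n := (r.den : ℤ)) (by exact_mod_cast hd)
      simpa using this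
    rw [e, map_div₀, h1] at h
    have h3 : 0 < v (r.den : K) := lt_of_le_of_ne zero_le (Ne.symm (v.ne_zero_iff.mpr hden0))
    have h4 : 1 < 1 / v (r.den : K) := (one_lt_div₀ h3).mpr h2
    exact absurd h (not_le.mpr h4)
  · intro h
    rw [e, map_div₀, val_nat_eq_one_of_not_dvd hp hvp h, div_one]
    exact EC.val_intCast_le_one v _

/-- if a rational number `r` is not integral at `p` then `v (p r) ≥ 1`. -/
lemma one_le_val_mul_of_not_le {p : ℕ} (hp : p.Prime) (hvp : v (p : K) < 1) (r : ℚ)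
    (h : 1 < v (algebraMap ℚ K r)) : 1 ≤ v ((p : K) * algebraMap ℚ K r) := by
  have hd : p ∣ r.den := by
    by_contra hd
    exact absurd ((val_rat_le_one_iff hp hvp r).mpr hd) (not_le.mpr h)
  have hnum : ¬ (p : ℤ) ∣ r.num := by
    intro hn
    have h1 : p ∣ r.num.natAbs := Int.natCast_dvd.mp hn
    have h2 : p ∣ Nat.gcd r.num.natAbs r.den := Nat.dvd_gcd h1 hd
    rw [r.reduced] at h2
    exact hp.one_lt.ne' (Nat.dvd_one.mp h2)
  have h1 : v (r.num : K) = 1 := S05.val_int_eq_one hp hvp hnum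
  have e : algebraMap ℚ K r = (r.num : K) / (r.den : K) := by
    conv_lhs => rw [← Rat.num_div_den r]
    simp
  have hden0 : (r.den : K) ≠ 0 := by exact_mod_cast r.den_ne_zero
  obtain ⟨d, hd⟩ := hd
  have hp0 : (p : K) ≠ 0 := by
    intro h0; rw [hd] at hden0; push_cast at hden0; rw [h0, zero_mul] at hden0; exact hden0 rfl
  have hd0 : (d : K) ≠ 0 := by
    intro h0; rw [hd] at hden0; push_cast at hden0; rw [h0, mul_zero] at hden0; exact hden0 rfl
  have e2 : (p : K) * algebraMap ℚ K r = (r.num : K) / (d : K) := by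
    rw [e, hd]; push_cast; field_simp
  rw [e2, map_div₀, h1]
  have h3 : 0 < v (d : K) := lt_of_le_of_ne zero_le (Ne.symm (v.ne_zero_iff.mpr hd0))
  exact (one_le_div₀ h3).mpr (EC.val_natCast_le_one v d)

end Rat

section Line

variable {W' : Affine ℚ} {p : ℕ} [hp : Fact p.Prime]
  {N : Submodule (ZMod p) (Submodule.torsionBy ℤ (W'⁄Qb).Point p)}
  [Finite (Submodule.torsionBy ℤ (W'⁄Qb).Point p)]

omit hp [Finite (Submodule.torsionBy ℤ (W'⁄Qb).Point p)] in
lemma nsmul_coe_eq_zero (x : Submodule.torsionBy ℤ (W'⁄Qb).Point p) :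
    p • (x : (W'⁄Qb).Point) = 0 := by
  have := (Submodule.mem_torsionBy_iff _ _).mp x.2
  rwa [← natCast_zsmul]

omit hp [Finite (Submodule.torsionBy ℤ (W'⁄Qb).Point p)] in
lemma coe_ne_zero {x : Submodule.torsionBy ℤ (W'⁄Qb).Point p} (hx : x ≠ 0) :
    (x : (W'⁄Qb).Point) ≠ 0 := fun h => hx (Subtype.ext h)

lemma xc_smul (σ : Qb ≃ₐ[ℚ] Qb) {P : (W'⁄Qb).Point} (hP : P ≠ 0) : xc (σ • P) = σ (xc P) := by
  obtain ⟨x, y, h, rfl⟩ := exists_eq_some hP
  rfl

lemma lineX_finite (N : Submodule (ZMod p) (Submodule.torsionBy ℤ (W'⁄Qb).Point p)) :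
    {a : Qb | ∃ x ∈ N, x ≠ 0 ∧ xc (x : (W'⁄Qb).Point) = a}.Finite :=
  (Set.finite_range (fun x : Submodule.torsionBy ℤ (W'⁄Qb).Point p =>
    xc (x : (W'⁄Qb).Point))).subset (by rintro a ⟨x, -, -, h⟩; exact ⟨x, h⟩)

/-- The set of `x`-coordinates of the nonzero points of a line. -/
noncomputable def lineX (N : Submodule (ZMod p) (Submodule.torsionBy ℤ (W'⁄Qb).Point p)) :
    Finset Qb := (lineX_finite N).toFinset

lemma mem_lineX {a : Qb} : a ∈ lineX N ↔
    ∃ x ∈ N, x ≠ 0 ∧ xc (x : (W'⁄Qb).Point) = a := by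
  rw [lineX, Set.Finite.mem_toFinset]
  rfl

/-- the product of the `x`-coordinates on the line -/
noncomputable def lineC (N : Submodule (ZMod p) (Submodule.torsionBy ℤ (W'⁄Qb).Point p)) : Qb :=
  ∏ x ∈ lineX N, x

omit hp [Finite (Submodule.torsionBy ℤ (W'⁄Qb).Point p)] in
lemma smul_ne_zero' {x : Submodule.torsionBy ℤ (W'⁄Qb).Point p} (hx : x ≠ 0)
    (σ : Qb ≃ₐ[ℚ] Qb) : σ • x ≠ 0 := fun h => hx ((smul_eq_zero_iff_eq σ).mp h)

lemma lineC_rational (hN : IsGaloisStable ℚ N) : ∃ r : ℚ, algebraMap ℚ Qb r = lineC N := by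
  classical
  apply (InfiniteGalois.mem_range_algebraMap_iff_fixed (k := ℚ) (lineC N)).mpr
  intro σ
  have himg : (lineX N).image σ = lineX N := by
    apply Finset.eq_of_subset_of_card_le
    · intro a ha
      obtain ⟨b, hb, rfl⟩ := Finset.mem_image.mp ha
      obtain ⟨x, hxN, hx0, rfl⟩ := mem_lineX.mp hb
      exact mem_lineX.mpr ⟨σ • x, hN σ x hxN, smul_ne_zero' hx0 σ, xc_smul σ (coe_ne_zero hx0)⟩
    · rw [Finset.card_image_of_injective _ σ.injective]
  unfold lineC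
  rw [map_prod]
  conv_rhs => rw [← himg]
  rw [Finset.prod_image (fun a _ b _ h => σ.injective h)]

variable {Γ₀ : Type*} [LinearOrderedCommGroupWithZero Γ₀] {v : Valuation Qb Γ₀}

/-- `c` not integral: `E₁[p] = N`. -/
theorem mem_E1_iff_mem_line (hp2 : p ≠ 2) (hvp : v (p : Qb) < 1) (hW : IsInt v (W'⁄Qb))
    (hcard : Nat.card (Submodule.torsionBy ℤ (W'⁄Qb).Point p) ≤ p ^ 2)
    (hbot : N ≠ ⊥) (htop : N ≠ ⊤) (hN : IsGaloisStable ℚ N) (hc : 1 < v (lineC N))
    (x : Submodule.torsionBy ℤ (W'⁄Qb).Point p) :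
    (x : (W'⁄Qb).Point) ∈ E1 v hW ↔ x ∈ N := by
  classical
  constructor
  · intro hx
    by_contra hxN
    have hx0 : x ≠ 0 := by rintro rfl; exact hxN (zero_mem _)
    rw [mem_E1_iff' hW (coe_ne_zero hx0)] at hx
    have hpK : (p : Qb) ≠ 0 := by exact_mod_cast hp.out.ne_zero
    have hne : (W'⁄Qb).preΨ' p ≠ 0 := WeierstrassCurve.preΨ'_ne_zero _ hpK
    have hxX : xc (x : (W'⁄Qb).Point) ∉ lineX N := by
      intro h
      obtain ⟨n, hnN, hn0, hxc⟩ := mem_lineX.mp h
      rcases (xc_eq_iff (coe_ne_zero hn0) (coe_ne_zero hx0)).mp hxc with h | h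
      · exact hxN (by rw [← show n = x from Subtype.ext h]; exact hnN)
      · apply hxN
        have : n = -x := Subtype.ext h
        rw [this] at hnN
        simpa using neg_mem hnN
    have hsub : (xc (x : (W'⁄Qb).Point) ::ₘ (lineX N).val) ≤ ((W'⁄Qb).preΨ' p).roots := by
      rw [Multiset.le_iff_subset (Multiset.nodup_cons.mpr ⟨hxX, (lineX N).nodup⟩)]
      intro a ha
      rw [Polynomial.mem_roots hne]
      rcases Multiset.mem_cons.mp ha with rfl | ha
      · exact preΨ'_eval_eq_zero hp.out hp2 (coe_ne_zero hx0) (nsmul_coe_eq_zero x)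
      · obtain ⟨n, hnN, hn0, rfl⟩ := mem_lineX.mp ha
        exact preΨ'_eval_eq_zero hp.out hp2 (coe_ne_zero hn0) (nsmul_coe_eq_zero n)
    have h1 := map_leadingCoeff_mul_prod_le_one (intCoeff_preΨ' hW p) hsub
    have hodd : ¬ Even p := by
      rw [Nat.not_even_iff_odd]; exact hp.out.odd_of_ne_two hp2
    rw [WeierstrassCurve.leadingCoeff_preΨ' _ hpK, if_neg hodd, Multiset.prod_cons] at h1
    have h2 : (lineX N).val.prod = lineC N := by
      unfold lineC; rw [Finset.prod_val]; rfl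
    rw [h2] at h1
    have e : (p : Qb) * (xc (x : (W'⁄Qb).Point) * lineC N) =
      xc (x : (W'⁄Qb).Point) * ((p : Qb) * lineC N) := by ring
    rw [e, map_mul] at h1
    obtain ⟨r, hr⟩ := lineC_rational hN
    have h3 : 1 ≤ v ((p : Qb) * lineC N) := by
      rw [← hr]
      exact one_le_val_mul_of_not_le hp.out hvp r (by rw [hr]; exact hc)
    exact absurd h1 (not_le.mpr (lt_of_lt_of_le hx (le_mul_of_one_le_right' h3)))
  · -- some point of `N` is in `E₁`, hence all of them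
    intro hxN
    have hex : ∃ a ∈ lineX N, 1 < v a := by
      by_contra hcon
      push Not at hcon
      refine absurd hc (not_lt.mpr ?_)
      unfold lineC
      rw [map_prod]
      exact Finset.prod_le_one' hcon
    obtain ⟨a, ha, hva⟩ := hex
    obtain ⟨n, hnN, hn0, rfl⟩ := mem_lineX.mp ha
    obtain ⟨k, rfl⟩ := exists_nsmul_eq hcard hbot htop hnN hn0 hxN
    have : (n : (W'⁄Qb).Point) ∈ E1 v hW := (mem_E1_iff' hW (coe_ne_zero hn0)).mpr hva
    exact nsmul_mem this k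

/-- `c` integral: `N ∩ E₁ = 0`. -/
theorem eq_zero_of_mem_E1 (hW : IsInt v (W'⁄Qb))
    (hcard : Nat.card (Submodule.torsionBy ℤ (W'⁄Qb).Point p) ≤ p ^ 2)
    (hbot : N ≠ ⊥) (htop : N ≠ ⊤) (hc : v (lineC N) ≤ 1)
    (x : Submodule.torsionBy ℤ (W'⁄Qb).Point p) (hxN : x ∈ N)
    (hx : (x : (W'⁄Qb).Point) ∈ E1 v hW) : x = 0 := by
  classical
  by_contra hx0
  have hall : ∀ a ∈ lineX N, 1 < v a := by
    intro a ha
    obtain ⟨n, hnN, hn0, rfl⟩ := mem_lineX.mp ha
    rw [← mem_E1_iff' hW (coe_ne_zero hn0)]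
    obtain ⟨k, rfl⟩ := exists_nsmul_eq hcard hbot htop hxN hx0 hnN
    exact nsmul_mem hx k
  have hne : (lineX N).Nonempty := ⟨_, mem_lineX.mpr ⟨x, hxN, hx0, rfl⟩⟩
  refine absurd hc (not_le.mpr ?_)
  unfold lineC
  rw [map_prod]
  exact Finset.prod_induction_nonempty _ (fun a => 1 < a) (fun a b ha hb => one_lt_mul'' ha hb)
    hne hall

end Line

end Fermat.Agent.ECP
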