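import Fermat.Agent.ECP.LinAlg
import Fermat.Prelude.Def_FLTPrelim_GaloisRep

set_option autoImplicit false

/-!
# Abstract local analysis of a stable line in the `p`-torsion
-/

namespace Fermat.Agent.ECP

open WeierstrassCurve WeierstrassCurve.Affine WeierstrassCurve.Affine.Point

variable {R S K : Type*} [CommRing R] [CommRing S] [Field K] [DecidableEq K]
  [Algebra R S] [Algebra R K] [Algebra S K] [IsScalarTower R S K] {W' : Affine R}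
  {p : ℕ} [hp : Fact p.Prime]

section

variable {N : Submodule (ZMod p) (Submodule.torsionBy ℤ (W'⁄K).Point p)}
  [Finite (Submodule.torsionBy ℤ (W'⁄K).Point p)]

/-- If `N` meets `E₁` trivially, `σ` is trivial on `N`. -/
theorem trivial_on_line (hcard : Nat.card (Submodule.torsionBy ℤ (W'⁄K).Point p) ≤ p ^ 2)
    (hbot : N ≠ ⊥) (htop : N ≠ ⊤) (hN : IsGaloisStable S N) (σ : K ≃ₐ[S] K)
    (E0 E1 : AddSubgroup (W'⁄K).Point)
    (h2 : ∀ Q ∈ E0, σ • Q - Q ∈ E1)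
    (h3 : ∀ x : Submodule.torsionBy ℤ (W'⁄K).Point p, σ • (x : (W'⁄K).Point) - x ∈ E0)
    (h : ∀ x ∈ N, (x : (W'⁄K).Point) ∈ E1 → x = 0) :
    ∀ x ∈ N, σ • x = x := by
  intro x hx
  have hy : σ • x - x ∈ N := sub_mem (hN σ x hx) hx
  by_cases hx0 : (x : (W'⁄K).Point) ∈ E0
  · exact sub_eq_zero.mp (h _ hy (h2 _ hx0))
  · by_contra hne
    have hy0 : σ • x - x ≠ 0 := fun h => hne (sub_eq_zero.mp h)
    obtain ⟨k, hk⟩ := exists_nsmul_eq hcard hbot htop hy hy0 hx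
    apply hx0
    rw [hk]
    exact nsmul_mem (h3 x) k

/-- If `E₁[p] = N`, `σ` is trivial on `E[p]/N`. -/
theorem trivial_on_quot (hcard : Nat.card (Submodule.torsionBy ℤ (W'⁄K).Point p) ≤ p ^ 2)
    (hbot : N ≠ ⊥) (htop : N ≠ ⊤) (σ : K ≃ₐ[S] K)
    (E0 E1 : AddSubgroup (W'⁄K).Point) (h1 : E1 ≤ E0)
    (h2 : ∀ Q ∈ E0, σ • Q - Q ∈ E1)
    (h3 : ∀ x : Submodule.torsionBy ℤ (W'⁄K).Point p, σ • (x : (W'⁄K).Point) - x ∈ E0)
    (h : ∀ x : Submodule.torsionBy ℤ (W'⁄K).Point p, (x : (W'⁄K).Point) ∈ E1 ↔ x ∈ N) :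
    ∀ x : Submodule.torsionBy ℤ (W'⁄K).Point p, σ • x - x ∈ N := by
  intro x
  by_cases hx0 : (x : (W'⁄K).Point) ∈ E0
  · exact (h _).mp (h2 _ hx0)
  · by_contra hne
    obtain ⟨n, hn, k, hk⟩ := exists_add_nsmul_eq hcard hbot htop hne x
    apply hx0
    rw [hk]
    exact add_mem (h1 ((h n).mpr hn)) (nsmul_mem (h3 x) k)

/-- If `E₁[p] = 0`, `σ` is trivial on `N` and on `E[p]/N`. -/
theorem trivial_on_both (hcard : Nat.card (Submodule.torsionBy ℤ (W'⁄K).Point p) ≤ p ^ 2)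
    (hbot : N ≠ ⊥) (htop : N ≠ ⊤) (hN : IsGaloisStable S N) (σ : K ≃ₐ[S] K)
    (E0 E1 : AddSubgroup (W'⁄K).Point)
    (h2 : ∀ Q ∈ E0, σ • Q - Q ∈ E1)
    (h3 : ∀ x : Submodule.torsionBy ℤ (W'⁄K).Point p, σ • (x : (W'⁄K).Point) - x ∈ E0)
    (h : ∀ x : Submodule.torsionBy ℤ (W'⁄K).Point p, (x : (W'⁄K).Point) ∈ E1 → x = 0) :
    (∀ x ∈ N, σ • x = x) ∧
      ∀ x : Submodule.torsionBy ℤ (W'⁄K).Point p, σ • x - x ∈ N := by
  have hA := trivial_on_line hcard hbot htop hN σ E0 E1 h2 h3 (fun x _ hx => h x hx)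
  refine ⟨hA, fun x => ?_⟩
  by_contra hne
  obtain ⟨n, hn, k, hk⟩ := exists_add_nsmul_eq hcard hbot htop hne x
  have h4 : σ • (σ • x - x) = σ • x - x := sub_eq_zero.mp (h _ (h2 _ (h3 x)))
  have h5 : σ • x = x := by
    conv_lhs => rw [hk]
    rw [smul_add, hA n hn, smul_comm, h4]
    exact hk.symm
  rw [h5, sub_self] at hne
  exact hne (zero_mem _)

end

end Fermat.Agent.ECP
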