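import Fermat.Agent.ECP.LineVal
import Fermat.Agent.EC.MultInertia

set_option autoImplicit false

/-!
# Inertia at a node (arbitrary residue characteristic)

For a Weierstrass curve with a `2`-torsion point `(e,t)` reducing to a node, `E₀` is the subgroup of
points with nonsingular reduction. If `σ` acts trivially on the residue field and preserves the
valuation, then `σ P - P ∈ E₀` for all `p`-torsion points `P`, `p` odd.
-/

namespace Fermat.Agent.ECP

open WeierstrassCurve WeierstrassCurve.Affine WeierstrassCurve.Affine.Point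
open Fermat.Agent.EC (IsInt InE1 xX xZ TrivMod NS comp nrm IsKummer)

section NodeData

variable {K Γ₀ : Type*} [Field K] [LinearOrderedCommGroupWithZero Γ₀]

/-- `(e, t)` is a `2`-torsion point reducing to a node. -/
structure NodeData (v : Valuation K Γ₀) (W : WeierstrassCurve.Affine K) (e t β : K) : Prop where
  isInt : IsInt v W
  e_le : v e ≤ 1
  eqn : t ^ 2 + W.a₁ * e * t + W.a₃ * t = e ^ 3 + W.a₂ * e ^ 2 + W.a₄ * e + W.a₆
  two_t : 2 * t + W.a₁ * e + W.a₃ = 0
  beta : β = 3 * e ^ 2 + 2 * W.a₂ * e + W.a₄ - W.a₁ * t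
  beta_pos : 0 < v β
  beta_lt : v β < 1
  unit : v (W.b₂ + 12 * e) = 1

variable {v : Valuation K Γ₀} {W : WeierstrassCurve.Affine K} {e t β : K}

lemma NodeData.h4 (h : NodeData v W e t β) : W.b₄ + W.b₂ * e + 6 * e ^ 2 = 2 * β := by
  have h1 := h.two_t
  have h2 := h.beta
  simp only [WeierstrassCurve.b₄, WeierstrassCurve.b₂]
  linear_combination W.a₁ * h1 - 2 * h2

lemma NodeData.h6 (h : NodeData v W e t β) :
    W.b₆ + 2 * W.b₄ * e + W.b₂ * e ^ 2 + 4 * e ^ 3 = 0 := by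
  have h1 := h.two_t
  have h2 := h.eqn
  simp only [WeierstrassCurve.b₄, WeierstrassCurve.b₂, WeierstrassCurve.b₆]
  linear_combination (-4) * h2 + (2 * t + W.a₁ * e + W.a₃) * h1

lemma NodeData.h8 (h : NodeData v W e t β) :
    W.b₈ + 3 * W.b₆ * e + 3 * W.b₄ * e ^ 2 + W.b₂ * e ^ 3 + 3 * e ^ 4 = -β ^ 2 := by
  have h1 := h.two_t
  have h2 := h.eqn
  have h3 := h.beta
  simp only [WeierstrassCurve.b₄, WeierstrassCurve.b₂, WeierstrassCurve.b₆, WeierstrassCurve.b₈]
  rw [h3]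
  linear_combination (-(W.a₁ ^ 2 + 4 * (W.a₂ + 3 * e))) * h2 +
    (-W.a₁ * (3 * e ^ 2 + 2 * W.a₂ * e + W.a₄ - W.a₁ * t) +
      (W.a₂ + 3 * e) * (2 * t + W.a₁ * e + W.a₃)) * h1

variable [DecidableEq K]

lemma NodeData.isKummer (h : NodeData v W e t β) :
    IsKummer (W.b₂ + 12 * e) (2 * β) 0 (-β ^ 2)
      (fun P : W.Point => xX P - e * xZ P) (xZ : W.Point → K) := by
  have hK := (EC.isKummer W).translate e
  rwa [h.h4, h.h6, h.h8] at hK

/-- component function -/
noncomputable def cmp (v : Valuation K Γ₀) (W : WeierstrassCurve.Affine K) (e β : K) (P : W.Point) :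
    Γ₀ :=
  comp v β (fun P : W.Point => xX P - e * xZ P) (xZ : W.Point → K) P

omit [DecidableEq K] in
lemma NodeData.le_cmp (_h : NodeData v W e t β) (P : W.Point) : v β ≤ cmp v W e β P :=
  le_max_right _ _

lemma NodeData.cmp_le (h : NodeData v W e t β) (P : W.Point) : cmp v W e β P ≤ 1 :=
  max_le ((EC.nrm_spec v h.isKummer P).2 ▸ le_max_left _ _) h.beta_lt.le

lemma NodeData.cmp_pos (h : NodeData v W e t β) (P : W.Point) : 0 < cmp v W e β P :=
  lt_of_lt_of_le h.beta_pos (h.le_cmp P)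

omit [DecidableEq K] in
lemma NodeData.cmp_some_of_lt (_h : NodeData v W e t β) {x y : K} (hP : W.Nonsingular x y)
    (hx : v (x - e) < 1) : cmp v W e β (.some x y hP) = max (v (x - e)) (v β) := by
  have hn : nrm v (fun P : W.Point => xX P - e * xZ P) (xZ : W.Point → K) (.some x y hP) = 1 := by
    unfold nrm
    rw [if_neg]
    · rfl
    · rw [not_le]
      change v (x - e * 1) < v 1
      rw [mul_one, Valuation.map_one]; exact hx
  unfold cmp comp
  rw [hn, div_one]
  change max (v (x - e * 1)) (v β) = _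
  rw [mul_one]

lemma NodeData.cmp_eq_one_of_le (h : NodeData v W e t β) {P : W.Point}
    (hP : v (xZ P) ≤ v (xX P - e * xZ P)) : cmp v W e β P = 1 := by
  have hn : nrm v (fun P : W.Point => xX P - e * xZ P) (xZ : W.Point → K) P =
      xX P - e * xZ P := by
    unfold nrm
    rw [if_pos hP]
  have h0 := (EC.nrm_spec v h.isKummer P).1
  rw [hn] at h0
  unfold cmp comp
  rw [hn]
  change max (v ((xX P - e * xZ P) / (xX P - e * xZ P))) (v β) = 1
  rw [div_self h0, Valuation.map_one]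
  exact max_eq_left h.beta_lt.le

lemma NodeData.cmp_eq_one_iff (h : NodeData v W e t β) (P : W.Point) :
    cmp v W e β P = 1 ↔ v (xZ P) ≤ v (xX P - e * xZ P) := by
  refine ⟨fun hc => ?_, h.cmp_eq_one_of_le⟩
  by_contra hcon
  rw [not_le] at hcon
  rcases P with _ | ⟨x, y, hP⟩
  · simp [← zero_def] at hcon
  · change v (x - e * 1) < v 1 at hcon
    rw [mul_one, Valuation.map_one] at hcon
    rw [h.cmp_some_of_lt hP hcon] at hc
    exact absurd hc (max_lt hcon h.beta_lt).ne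

lemma NodeData.eq_one_of_sim (h : NodeData v W e t β) {P : W.Point}
    (hT : EC.Sim (v β) (cmp v W e β P) 1) : cmp v W e β P = 1 := by
  have hβ0 := h.beta_pos
  have hβ1 := h.beta_lt
  have hT1 := h.cmp_le P
  have hTβ := h.le_cmp P
  obtain ⟨j, hj⟩ := hT.symm hβ0.ne'
  have hj' : cmp v W e β P = v β ^ (2 * j) := by
    rcases hj with hj | hj
    · rw [hj, one_mul]
    · rw [hj, inv_one, one_mul]
  have hj0 : 0 ≤ j := by
    by_contra hneg
    rw [not_le] at hneg
    have : 1 < v β ^ (2 * j) := one_lt_zpow_of_neg₀ hβ0 hβ1 (by omega)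
    rw [← hj'] at this
    exact absurd hT1 (not_le.mpr this)
  obtain ⟨n, rfl⟩ := Int.eq_ofNat_of_zero_le hj0
  have hj'' : cmp v W e β P = v β ^ (2 * n) := by
    rw [hj']; exact_mod_cast zpow_natCast (v β) (2 * n)
  rcases Nat.eq_zero_or_pos n with rfl | hn
  · rw [hj'', mul_zero, pow_zero]
  · exfalso
    rw [hj''] at hTβ
    have : v β ^ (2 * n) < v β ^ 1 := pow_lt_pow_right_of_lt_one₀ hβ0 hβ1 (by omega)
    rw [pow_one] at this
    exact absurd hTβ (not_le.mpr this)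

/-- The subgroup of points with nonsingular reduction. -/
def NodeData.E0 (h : NodeData v W e t β) : AddSubgroup W.Point where
  carrier := {P | v (xZ P) ≤ v (xX P - e * xZ P)}
  zero_mem' := by
    change v (xZ (0 : W.Point)) ≤ v (xX (0 : W.Point) - e * xZ (0 : W.Point))
    simp
  add_mem' {P Q} hP hQ := by
    change v (xZ _) ≤ v (xX _ - e * xZ _)
    change v (xZ _) ≤ v (xX _ - e * xZ _) at hP
    change v (xZ _) ≤ v (xX _ - e * xZ _) at hQ
    rw [← h.cmp_eq_one_iff] at hP hQ ⊢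
    have hpair := EC.comp_pair (v := v) h.isKummer h.beta_pos h.beta_lt h.unit P Q
    change EC.PairSim (v β) (cmp v W e β (P + Q)) (cmp v W e β (P - Q))
      (cmp v W e β P * cmp v W e β Q) (cmp v W e β P / cmp v W e β Q) at hpair
    rw [hP, hQ, one_mul, div_one] at hpair
    rcases hpair with ⟨h1, -⟩ | ⟨h1, -⟩ <;> exact h.eq_one_of_sim h1
  neg_mem' {P} hP := by
    change v (xZ _) ≤ v (xX _ - e * xZ _)
    change v (xZ _) ≤ v (xX _ - e * xZ _) at hP
    rwa [(EC.isKummer W).X_neg, (EC.isKummer W).Z_neg]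

lemma NodeData.mem_E0_iff (h : NodeData v W e t β) {P : W.Point} :
    P ∈ h.E0 ↔ v (xZ P) ≤ v (xX P - e * xZ P) := Iff.rfl

lemma NodeData.mem_E0_iff' (h : NodeData v W e t β) {P : W.Point} :
    P ∈ h.E0 ↔ cmp v W e β P = 1 := (h.cmp_eq_one_iff P).symm

lemma NodeData.mem_E0_iff_xc (h : NodeData v W e t β) {P : W.Point} (hP : P ≠ 0) :
    P ∈ h.E0 ↔ 1 ≤ v (xc P - e) := by
  obtain ⟨x, y, hxy, rfl⟩ := exists_eq_some hP
  rw [h.mem_E0_iff]
  change v 1 ≤ v (x - e * 1) ↔ 1 ≤ v (x - e)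
  rw [mul_one, Valuation.map_one]

lemma NodeData.E1_le_E0 (h : NodeData v W e t β) : E1 v h.isInt ≤ h.E0 := by
  intro P hP
  rw [mem_E1_iff] at hP
  change v (xZ P) < v (xX P) at hP
  rw [h.mem_E0_iff]
  have h1 : v (e * xZ P) < v (xX P) := by
    rw [map_mul]
    exact lt_of_le_of_lt (mul_le_of_le_one_left' h.e_le) hP
  rw [Valuation.map_sub_eq_of_lt_left v h1]
  exact hP.le

/-- points of `E₀` have nonsingular reduction -/
lemma NodeData.ns (h : NodeData v W e t β) {T : W.Point} (hT : T ∈ h.E0)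
    (hle : v (xX T) ≤ v (xZ T)) : NS v W (xX T) := by
  have hW := h.isInt
  have he := h.e_le
  rcases T with _ | ⟨x, y, hxy⟩
  · simp [← zero_def] at hle
  · have hx : v x ≤ 1 := by simpa using hle
    have hxe : v (x - e) = 1 := by
      have h1 : v (x - e) ≤ 1 := (v.map_sub _ _).trans (max_le hx he)
      rw [h.mem_E0_iff] at hT
      change v 1 ≤ v (x - e * 1) at hT
      rw [mul_one, Valuation.map_one] at hT
      exact le_antisymm h1 hT
    have hphi := EC.phi_translate W x e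
    rw [h.h4, h.h6, h.h8] at hphi
    have hphi1 : v ((x - e) ^ 4 - 2 * β * (x - e) ^ 2 - 2 * 0 * (x - e) - -β ^ 2) = 1 := by
      have : (x - e) ^ 4 - 2 * β * (x - e) ^ 2 - 2 * 0 * (x - e) - -β ^ 2 =
        ((x - e) ^ 2 - β) ^ 2 := by ring
      rw [this, map_pow, Valuation.map_sub_eq_of_lt_left v, map_pow, hxe, one_pow, one_pow]
      rw [map_pow, hxe, one_pow]; exact h.beta_lt
    rw [← hphi] at hphi1
    by_contra hcon
    change ¬ NS v W x at hcon
    rw [NS, not_or] at hcon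
    have hx' : x ∈ v.integer := hx
    have i2 : W.b₂ ∈ v.integer := hW.b₂
    have i4 : W.b₄ ∈ v.integer := hW.b₄
    have i6 : W.b₆ ∈ v.integer := hW.b₆
    have i8 : W.b₈ ∈ v.integer := hW.b₈
    have j2 := EC.ofNat_mem_integer v 2
    have j4 := EC.ofNat_mem_integer v 4
    have hpsi : v (4 * x ^ 3 + W.b₂ * x ^ 2 + 2 * W.b₄ * x + W.b₆) ≤ 1 :=
      add_mem (add_mem (add_mem (mul_mem j4 (pow_mem hx' 3)) (mul_mem i2 (pow_mem hx' 2)))
        (mul_mem (mul_mem j2 i4) hx')) i6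
    have hphi' : v (x ^ 4 - W.b₄ * x ^ 2 - 2 * W.b₆ * x - W.b₈) ≤ 1 :=
      sub_mem (sub_mem (sub_mem (pow_mem hx' 4) (mul_mem i4 (pow_mem hx' 2)))
        (mul_mem (mul_mem j2 i6) hx')) i8
    have k1 := lt_of_le_of_ne hpsi hcon.1
    have k2 := lt_of_le_of_ne hphi' hcon.2
    refine absurd hphi1 (ne_of_lt ((v.map_sub _ _).trans_lt (max_lt k2 ?_)))
    rw [map_mul]
    exact lt_of_le_of_lt (mul_le_of_le_one_left' he) k1

/-- torsion points of odd order are not on the opposite component -/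
lemma NodeData.lt_cmp_of_torsion (h : NodeData v W e t β) {p : ℕ} (hp : Odd p) {P : W.Point}
    (hP : p • P = 0) : v β < cmp v W e β P := by
  have hβ0 := h.beta_pos
  have hβ1 := h.beta_lt
  refine lt_of_le_of_ne (h.le_cmp P) fun hcon => ?_
  have hsim := (EC.comp_nsmul (v := v) h.isKummer hβ0 hβ1 h.unit P p).1
  change EC.Sim (v β) (cmp v W e β (p • P)) (cmp v W e β P ^ p) at hsim
  have h0 : cmp v W e β 0 = 1 := EC.comp_zero (v := v) h.isKummer hβ1
  rw [hP, h0, ← hcon] at hsim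
  obtain ⟨k, hk⟩ := hsim
  have hk' : v β ^ (p : ℤ) = v β ^ (2 * k) := by
    rw [zpow_natCast]
    rcases hk with hk | hk
    · rw [hk, one_mul]
    · rw [hk, inv_one, one_mul]
  have hinj := zpow_right_injective₀ hβ0 hβ1.ne hk'
  obtain ⟨m, hm⟩ := hp
  omega

end NodeData

section Key

variable {K Γ₀ : Type*} [Field K] [LinearOrderedCommGroupWithZero Γ₀] {v : Valuation K Γ₀}

lemma rho_le_one {a₁ ρ c : K} (ha₁ : v a₁ ≤ 1) (hc : v c ≤ 1) (h : ρ ^ 2 + a₁ * ρ = c) :
    v ρ ≤ 1 := by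
  by_contra hcon
  rw [not_le] at hcon
  have h1 : v (a₁ * ρ) < v (ρ ^ 2) := by
    rw [map_mul, map_pow, pow_two]
    calc v a₁ * v ρ ≤ 1 * v ρ := by gcongr
      _ < v ρ * v ρ := mul_lt_mul_of_pos_right hcon (zero_lt_one.trans hcon)
  have h2 : v c = v ρ ^ 2 := by
    rw [← h, Valuation.map_add_eq_of_lt_left v h1, map_pow]
  rw [h2] at hc
  exact absurd hc (not_le.mpr (one_lt_pow₀ hcon two_ne_zero))

lemma unit_of_sq {a₁ a₂ s ρ : K} (hu : v (a₁ ^ 2 + 4 * a₂) = 1)
    (hs : v s < 1) (h : ρ ^ 2 + a₁ * ρ = a₂ + s) : v (2 * ρ + a₁) = 1 := by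
  have h1 : (2 * ρ + a₁) ^ 2 = (a₁ ^ 2 + 4 * a₂) + 4 * s := by linear_combination 4 * h
  have h4 : v (4 : K) ≤ 1 := by exact_mod_cast EC.val_natCast_le_one v 4
  have h2 : v (4 * s) < v (a₁ ^ 2 + 4 * a₂) := by
    rw [hu, map_mul]
    exact lt_of_le_of_lt (mul_le_of_le_one_left' h4) hs
  have h3 : v (2 * ρ + a₁) ^ 2 = 1 := by
    rw [← map_pow, h1, Valuation.map_add_eq_of_lt_left v h2, hu]
  exact (pow_eq_one_iff_of_nonneg zero_le two_ne_zero).mp h3

lemma node_aux {a₁ a₂ β ξ ρ ξ' ρ' : K} (hw : v (ρ' + ρ + a₁) = 1)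
    (hξ : v β < v ξ) (hξ1 : v ξ < 1) (hξ' : v ξ' = v ξ)
    (h' : ρ' ^ 2 + a₁ * ρ' = a₂ + (ξ' + β / ξ')) (hρ : v (ρ' - ρ) < 1)
    (hD : ξ' ≠ ξ) :
    1 ≤ v (((ρ' * ξ' + (ρ + a₁) * ξ) / (ξ' - ξ)) ^ 2 +
      a₁ * ((ρ' * ξ' + (ρ + a₁) * ξ) / (ξ' - ξ)) - a₂ - ξ' - ξ) := by
  have hξpos : 0 < v ξ := lt_of_le_of_lt zero_le hξ
  have hD0 : ξ' - ξ ≠ 0 := sub_ne_zero.mpr hD
  have hDpos : 0 < v (ξ' - ξ) := lt_of_le_of_ne zero_le (Ne.symm (v.ne_zero_iff.mpr hD0))
  have hDle : v (ξ' - ξ) ≤ v ξ := (v.map_sub _ _).trans (max_le hξ'.le le_rfl)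
  set L := (ρ' * ξ' + (ρ + a₁) * ξ) / (ξ' - ξ) with hL
  have hLD : L * (ξ' - ξ) = ρ' * ξ' + (ρ + a₁) * ξ := by rw [hL, div_mul_cancel₀ _ hD0]
  have e1 : L - ρ' = (ρ' + ρ + a₁) * ξ / (ξ' - ξ) := by
    rw [eq_div_iff hD0]; linear_combination hLD
  have e2 : L + a₁ + ρ = (ρ' + ρ + a₁) * ξ' / (ξ' - ξ) := by
    rw [eq_div_iff hD0]; linear_combination hLD
  have v1 : v (L - ρ') = v ξ / v (ξ' - ξ) := by rw [e1, map_div₀, map_mul, hw, one_mul]
  have v2 : v (L + a₁ + ρ) = v ξ / v (ξ' - ξ) := by rw [e2, map_div₀, map_mul, hw, one_mul, hξ']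
  have hr : 1 ≤ v ξ / v (ξ' - ξ) := (one_le_div₀ hDpos).mpr hDle
  have v3 : v (L + a₁ + ρ') = v ξ / v (ξ' - ξ) := by
    have e3 : L + a₁ + ρ' = (L + a₁ + ρ) + (ρ' - ρ) := by ring
    have hlt : v (ρ' - ρ) < v (L + a₁ + ρ) := by rw [v2]; exact lt_of_lt_of_le hρ hr
    rw [e3, Valuation.map_add_eq_of_lt_left v hlt, v2]
  have e4 : L ^ 2 + a₁ * L - a₂ - ξ' - ξ = (L - ρ') * (L + a₁ + ρ') + (β / ξ' - ξ) := by
    linear_combination h'
  have hprod : 1 ≤ v ((L - ρ') * (L + a₁ + ρ')) := by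
    rw [map_mul, v1, v3]
    exact one_le_mul hr hr
  have hsmall : v (β / ξ' - ξ) < 1 := by
    refine (v.map_sub _ _).trans_lt (max_lt ?_ hξ1)
    rw [map_div₀, hξ']
    exact (div_lt_one₀ hξpos).mpr hξ
  rw [e4, Valuation.map_add_eq_of_lt_left v (lt_of_lt_of_le hsmall hprod)]
  exact hprod

end Key

section Galois

variable {R S K Γ₀ : Type*} [CommRing R] [CommRing S] [Field K] [DecidableEq K]
  [LinearOrderedCommGroupWithZero Γ₀] [Algebra R S] [Algebra R K] [Algebra S K]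
  [IsScalarTower R S K] {v : Valuation K Γ₀} {W' : Affine R}

/-- `(σ - 1) E₀ ⊆ E₁` -/
theorem NodeData.smul_sub_mem_E1 {e t β : K} (h : NodeData v (W'⁄K) e t β) {σ : K ≃ₐ[S] K}
    (hσ : TrivMod v σ) {Q : (W'⁄K).Point} (hQ : Q ∈ h.E0) : σ • Q - Q ∈ E1 v h.isInt :=
  EC.smul_sub_inE1 h.isInt hσ Q (fun hle => h.ns hQ hle)

/-- The main lemma: `σ P - P ∈ E₀` if `P` is not on the opposite component. -/
theorem NodeData.smul_sub_mem_E0 {e t β : K} (h : NodeData v (W'⁄K) e t β) {σ : K ≃ₐ[S] K}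
    (hσ : TrivMod v σ) (hσv : ∀ x, v (σ x) = v x) (hσe : σ e = e) (hσt : σ t = t)
    {P : (W'⁄K).Point} (hP : v β < cmp v (W'⁄K) e β P) : σ • P - P ∈ h.E0 := by
  by_cases hc : P ∈ h.E0
  · exact h.E1_le_E0 (h.smul_sub_mem_E1 hσ hc)
  have hP0 : P ≠ 0 := by rintro rfl; exact hc (zero_mem _)
  obtain ⟨x, y, hxy, rfl⟩ := exists_eq_some hP0
  rw [h.mem_E0_iff_xc hP0, xc_some, not_le] at hc
  rw [h.cmp_some_of_lt hxy hc] at hP
  have hξβ : v β < v (x - e) := by
    rcases lt_max_iff.mp hP with h1 | h1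
    · exact h1
    · exact absurd h1 (lt_irrefl _)
  have hξpos : 0 < v (x - e) := lt_of_le_of_lt zero_le hξβ
  have hξ0 : x - e ≠ 0 := by
    intro h0; rw [h0, Valuation.map_zero] at hξpos; exact lt_irrefl _ hξpos
  have hns' : (W'⁄K).Nonsingular (σ x) (σ y) :=
    (W'.baseChange_nonsingular (f := σ.toAlgHom) σ.toAlgHom.injective ..).mpr hxy
  have hσP : σ • (.some x y hxy : (W'⁄K).Point) = .some (σ x) (σ y) hns' := rfl
  have hσξ : σ x - e = σ (x - e) := by rw [_root_.map_sub, hσe]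
  have hση : σ y - t = σ (y - t) := by rw [_root_.map_sub, hσt]
  have hvξ' : v (σ x - e) = v (x - e) := by rw [hσξ, hσv]
  have hξ'0 : σ x - e ≠ 0 := by
    intro h0; rw [h0, Valuation.map_zero] at hvξ'; exact hξpos.ne hvξ'
  -- the equation in the translated coordinates
  have key : ∀ {x y : K}, (W'⁄K).Nonsingular x y → x - e ≠ 0 →
      ((y - t) / (x - e)) ^ 2 + (W'⁄K).a₁ * ((y - t) / (x - e)) =
        ((W'⁄K).a₂ + 3 * e) + ((x - e) + β / (x - e)) := by
    intro x y hxy h0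
    have h1 := (Affine.equation_iff ..).mp hxy.1
    have h2 := h.eqn
    have h3 := h.two_t
    have h4 := h.beta
    field_simp
    rw [h4]
    linear_combination h1 - h2 - (y - t) * h3
  have k1 := key hxy hξ0
  have k2 := key hns' hξ'0
  set ρ := (y - t) / (x - e) with hρ
  set ρ' := (σ y - t) / (σ x - e) with hρ'
  have hσρ : ρ' = σ ρ := by rw [hρ, hρ', hσξ, hση, map_div₀]
  have ha₁ : v (W'⁄K).a₁ ≤ 1 := h.isInt.mem.1
  have hs : v ((x - e) + β / (x - e)) < 1 := by
    refine (v.map_add _ _).trans_lt (max_lt hc ?_)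
    rw [map_div₀]
    exact (div_lt_one₀ hξpos).mpr hξβ
  have ha₂ : v ((W'⁄K).a₂ + 3 * e) ≤ 1 := by
    have h3 : v (3 : K) ≤ 1 := by exact_mod_cast EC.val_natCast_le_one v 3
    refine (v.map_add _ _).trans (max_le h.isInt.mem.2.1 ?_)
    rw [map_mul]
    exact mul_le_one' h3 h.e_le
  have hu : v ((W'⁄K).a₁ ^ 2 + 4 * ((W'⁄K).a₂ + 3 * e)) = 1 := by
    have := h.unit
    rw [WeierstrassCurve.b₂] at this
    rw [← this]; congr 1; ring
  have hρ1 : v ρ ≤ 1 := by
    refine rho_le_one ha₁ ?_ k1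
    exact (v.map_add _ _).trans (max_le ha₂ hs.le)
  have hρρ' : v (ρ' - ρ) < 1 := by rw [hσρ]; exact hσ.int ρ hρ1
  have hu' := unit_of_sq hu hs k1
  have hw : v (ρ' + ρ + (W'⁄K).a₁) = 1 := by
    have e1 : ρ' + ρ + (W'⁄K).a₁ = (2 * ρ + (W'⁄K).a₁) + (ρ' - ρ) := by ring
    rw [e1, Valuation.map_add_eq_of_lt_left v (by rw [hu']; exact hρρ'), hu']
  by_cases hD : σ x - e = x - e
  · -- `σ P = P`
    have hx : σ x = x := by linear_combination hD
    have hρeq : ρ' = ρ := by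
      have h1 : (ρ' - ρ) * (ρ' + ρ + (W'⁄K).a₁) = 0 := by
        rw [hD] at k2
        linear_combination k2 - k1
      rcases mul_eq_zero.mp h1 with h1 | h1
      · exact sub_eq_zero.mp h1
      · rw [h1, Valuation.map_zero] at hw
        exact absurd hw zero_ne_one
    have hy : σ y = y := by
      have h1 : σ y - t = ρ' * (σ x - e) := by rw [hρ', div_mul_cancel₀ _ hξ'0]
      have h2 : y - t = ρ * (x - e) := by rw [hρ, div_mul_cancel₀ _ hξ0]
      rw [hρeq, hD, ← h2] at h1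
      linear_combination h1
    have : σ • (.some x y hxy : (W'⁄K).Point) = .some x y hxy := by
      rw [hσP]
      congr
    rw [this, sub_self]
    exact zero_mem _
  · have hxne : σ x ≠ x := fun h0 => hD (by rw [h0])
    have hP' : (.some (σ x) (σ y) hns' : (W'⁄K).Point) ≠ 0 := by
      intro h0; exact Point.some_ne_zero _ h0
    have hne : xc (.some (σ x) (σ y) hns' : (W'⁄K).Point) ≠ xc (.some x y hxy : (W'⁄K).Point) :=
      hxne
    rw [hσP, h.mem_E0_iff_xc (sub_ne_zero_of_xc_ne hne), xc_sub hP' hP0 hne]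
    simp only [xc_some, yc_some]
    have haux := node_aux (a₂ := (W'⁄K).a₂ + 3 * e) hw hξβ hc hvξ' k2 hρρ' hD
    refine haux.trans (le_of_eq ?_)
    have hnum : ρ' * (σ x - e) + (ρ + (W'⁄K).a₁) * (x - e) =
        σ y + y + (W'⁄K).a₁ * x + (W'⁄K).a₃ := by
      have h1 : ρ' * (σ x - e) = σ y - t := by rw [hρ', div_mul_cancel₀ _ hξ'0]
      have h2 : ρ * (x - e) = y - t := by rw [hρ, div_mul_cancel₀ _ hξ0]
      linear_combination h1 + h2 - h.two_t
    have hden : σ x - e - (x - e) = σ x - x := by ring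
    rw [hnum, hden]
    congr 1
    ring

/-- `(σ - 1) E[p] ⊆ E₀` for `p` odd. -/
theorem NodeData.smul_sub_mem_E0_of_torsion {e t β : K} (h : NodeData v (W'⁄K) e t β)
    {σ : K ≃ₐ[S] K} (hσ : TrivMod v σ) (hσv : ∀ x, v (σ x) = v x) (hσe : σ e = e)
    (hσt : σ t = t) {p : ℕ} (hp : Odd p) {P : (W'⁄K).Point} (hP : p • P = 0) :
    σ • P - P ∈ h.E0 :=
  h.smul_sub_mem_E0 hσ hσv hσe hσt (h.lt_cmp_of_torsion hp hP)

end Galois

open scoped Pointwise in
/-- Elements of the inertia group preserve the valuation (algebraic extensions). -/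
theorem valuation_smul_eq {k L : Type*} [Field k] [Field L] [Algebra k L]
    [Algebra.IsAlgebraic k L]
    (A : ValuationSubring L) {σ : L ≃ₐ[k] L} (hσ : σ ∈ A.inertiaSubgroupIn k) (x : L) :
    A.valuation (σ x) = A.valuation x := by
  obtain ⟨τ, hτ, rfl⟩ := hσ
  clear hτ
  have hmem : ((τ : L ≃ₐ[k] L) • A : ValuationSubring L) = A := τ.2
  set s : L ≃ₐ[k] L := (τ : L ≃ₐ[k] L) with hs
  change A.valuation (s x) = A.valuation x
  have hA : ∀ y, s y ∈ A ↔ y ∈ A := by
    intro y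
    constructor
    · intro h
      have : s • y ∈ s • A := by rw [hmem]; exact h
      exact (ValuationSubring.smul_mem_pointwise_smul_iff).mp this
    · intro h
      have : s • y ∈ s • A := (ValuationSubring.smul_mem_pointwise_smul_iff).mpr h
      rw [hmem] at this
      exact this
  have hle : ∀ y z, A.valuation (s y) ≤ A.valuation (s z) ↔ A.valuation y ≤ A.valuation z := by
    intro y z
    by_cases hz : z = 0
    · subst hz
      simp
    · have hz' : s z ≠ 0 := by simpa using hz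
      have p1 : 0 < A.valuation z :=
        lt_of_le_of_ne zero_le (Ne.symm (A.valuation.ne_zero_iff.mpr hz))
      have p2 : 0 < A.valuation (s z) :=
        lt_of_le_of_ne zero_le (Ne.symm (A.valuation.ne_zero_iff.mpr hz'))
      rw [← div_le_one₀ p1, ← div_le_one₀ p2, ← map_div₀, ← map_div₀, ← map_div₀,
        A.valuation_le_one_iff, A.valuation_le_one_iff]
      exact hA _
  -- the orbit of `x` is finite
  obtain ⟨n, hn, hx⟩ : ∃ n : ℕ, 0 < n ∧ (s ^ n) x = x := by
    have hfin : ((minpoly k x).rootSet L).Finite := (minpoly k x).rootSet_finite L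
    have hmaps : ∀ n : ℕ, (s ^ n) x ∈ (minpoly k x).rootSet L := by
      intro n
      rw [Polynomial.mem_rootSet]
      refine ⟨minpoly.ne_zero (Algebra.IsIntegral.isIntegral x), ?_⟩
      have := Polynomial.aeval_algHom_apply ((s ^ n : L ≃ₐ[k] L) : L →ₐ[k] L) x (minpoly k x)
      rw [minpoly.aeval, _root_.map_zero] at this
      exact this
    obtain ⟨i, -, j, -, hij, hijx⟩ := Set.infinite_univ.exists_ne_map_eq_of_mapsTo
      (s := Set.univ) (t := (minpoly k x).rootSet L) (f := fun n : ℕ => (s ^ n) x)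
      (fun n _ => hmaps n) hfin
    have haux : ∀ i j : ℕ, i < j → (s ^ i) x = (s ^ j) x → ∃ n : ℕ, 0 < n ∧ (s ^ n) x = x := by
      intro i j hlt h
      refine ⟨j - i, by omega, ?_⟩
      have : j = i + (j - i) := by omega
      rw [this, pow_add] at h
      exact ((s ^ i).injective h).symm
    rcases lt_or_gt_of_ne hij with hlt | hlt
    · exact haux i j hlt hijx
    · exact haux j i hlt hijx.symm
  rcases lt_trichotomy (A.valuation (s x)) (A.valuation x) with hlt | heq | hlt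
  · exfalso
    have h1 : ∀ m : ℕ, 0 < m → A.valuation ((s ^ m) x) < A.valuation x := by
      intro m hm
      induction m with
      | zero => omega
      | succ m ih =>
        rcases Nat.eq_zero_or_pos m with rfl | hm'
        · simpa using hlt
        · have h2 := ih hm'
          have h3 : A.valuation (s ((s ^ m) x)) < A.valuation (s x) := by
            rw [← not_le, hle, not_le]; exact h2
          rw [pow_succ']
          exact h3.trans hlt
    have := h1 n hn
    rw [hx] at this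
    exact lt_irrefl _ this
  · exact heq
  · exfalso
    have h1 : ∀ m : ℕ, 0 < m → A.valuation x < A.valuation ((s ^ m) x) := by
      intro m hm
      induction m with
      | zero => omega
      | succ m ih =>
        rcases Nat.eq_zero_or_pos m with rfl | hm'
        · simpa using hlt
        · have h2 := ih hm'
          have h3 : A.valuation (s x) < A.valuation (s ((s ^ m) x)) := by
            rw [← not_le, hle, not_le]; exact h2
          rw [pow_succ']
          exact hlt.trans h3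
    have := h1 n hn
    rw [hx] at this
    exact lt_irrefl _ this

end Fermat.Agent.ECP
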