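import Mathlib

/-!
# x-coordinates of points on Weierstrass curves over fields

Elementary formulas for `x(P+Q)`, `x(P-Q)`, and doubling.
-/

set_option autoImplicit false

namespace Fermat.Agent.ECP

open WeierstrassCurve WeierstrassCurve.Affine WeierstrassCurve.Affine.Point Polynomial

universe u

variable {F : Type u} [Field F] {W : WeierstrassCurve.Affine F}

/-- x-coordinate, junk value `0` at infinity. -/
def xc : W.Point → F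
  | .zero => 0
  | .some x _ _ => x

/-- y-coordinate, junk value `0` at infinity. -/
def yc : W.Point → F
  | .zero => 0
  | .some _ y _ => y

/-- The value `2y + a₁x + a₃`. -/
def tc (P : W.Point) : F := 2 * yc P + W.a₁ * xc P + W.a₃

@[simp] lemma xc_some {x y : F} (h : W.Nonsingular x y) : xc (Point.some x y h) = x := rfl
@[simp] lemma yc_some {x y : F} (h : W.Nonsingular x y) : yc (Point.some x y h) = y := rfl
lemma tc_some {x y : F} (h : W.Nonsingular x y) :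
    tc (Point.some x y h) = 2 * y + W.a₁ * x + W.a₃ := rfl

lemma exists_eq_some {P : W.Point} (hP : P ≠ 0) :
    ∃ (x y : F) (h : W.Nonsingular x y), P = Point.some x y h := by
  rcases P with _ | ⟨x, y, h⟩
  · exact absurd rfl hP
  · exact ⟨x, y, h, rfl⟩

lemma xc_neg (P : W.Point) : xc (-P) = xc P := by
  rcases P with _ | ⟨x, y, h⟩ <;> rfl

lemma yc_neg {P : W.Point} (hP : P ≠ 0) : yc (-P) = - yc P - W.a₁ * xc P - W.a₃ := by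
  obtain ⟨x, y, h, rfl⟩ := exists_eq_some hP
  rfl

lemma tc_neg {P : W.Point} (hP : P ≠ 0) : tc (-P) = - tc P := by
  rw [tc, tc, yc_neg hP, xc_neg]; ring

lemma equation_of_ne_zero {P : W.Point} (hP : P ≠ 0) :
    yc P ^ 2 + W.a₁ * xc P * yc P + W.a₃ * yc P =
      xc P ^ 3 + W.a₂ * xc P ^ 2 + W.a₄ * xc P + W.a₆ := by
  obtain ⟨x, y, h, rfl⟩ := exists_eq_some hP
  exact (Affine.equation_iff ..).mp h.1

lemma nonsingular_of_ne_zero {P : W.Point} (hP : P ≠ 0) : W.Nonsingular (xc P) (yc P) := by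
  obtain ⟨x, y, h, rfl⟩ := exists_eq_some hP
  exact h

lemma xc_eq_iff {P Q : W.Point} (hP : P ≠ 0) (hQ : Q ≠ 0) :
    xc P = xc Q ↔ P = Q ∨ P = -Q := by
  obtain ⟨x, y, h, rfl⟩ := exists_eq_some hP
  obtain ⟨x', y', h', rfl⟩ := exists_eq_some hQ
  exact Point.X_eq_iff

lemma ext_xy {P Q : W.Point} (hP : P ≠ 0) (hQ : Q ≠ 0) (hx : xc P = xc Q) (hy : yc P = yc Q) :
    P = Q := by
  obtain ⟨x, y, h, rfl⟩ := exists_eq_some hP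
  obtain ⟨x', y', h', rfl⟩ := exists_eq_some hQ
  simp only [xc_some, yc_some] at hx hy
  subst hx hy
  rfl

lemma tc_sq {P : W.Point} (hP : P ≠ 0) :
    tc P ^ 2 = 4 * xc P ^ 3 + W.b₂ * xc P ^ 2 + 2 * W.b₄ * xc P + W.b₆ := by
  have h := equation_of_ne_zero hP
  simp only [tc, WeierstrassCurve.b₂, WeierstrassCurve.b₄, WeierstrassCurve.b₆]
  linear_combination 4 * h

lemma tc_sq' {P : W.Point} (hP : P ≠ 0) : tc P ^ 2 = W.Ψ₂Sq.eval (xc P) := by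
  rw [tc_sq hP, WeierstrassCurve.Ψ₂Sq]
  simp

variable [DecidableEq F]

lemma two_smul_eq_zero_iff {P : W.Point} (hP : P ≠ 0) : (2 : ℕ) • P = 0 ↔ tc P = 0 := by
  obtain ⟨x, y, h, rfl⟩ := exists_eq_some hP
  rw [two_nsmul, ← eq_neg_iff_add_eq_zero, Point.neg_some, Point.some.injEq]
  simp only [true_and, Affine.negY, tc_some]
  constructor
  · intro h; linear_combination h
  · intro h; linear_combination h

lemma add_ne_zero_of_xc_ne {P Q : W.Point} (hPQ : xc P ≠ xc Q) : P + Q ≠ 0 := by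
  intro h
  rw [← eq_neg_iff_add_eq_zero] at h
  rw [h, xc_neg] at hPQ
  exact hPQ rfl

lemma sub_ne_zero_of_xc_ne {P Q : W.Point} (hPQ : xc P ≠ xc Q) : P - Q ≠ 0 := by
  intro h
  rw [sub_eq_zero] at h
  rw [h] at hPQ
  exact hPQ rfl

/-- addition formula with the chord slope. -/
lemma xc_add {P Q : W.Point} (hP : P ≠ 0) (hQ : Q ≠ 0) (hPQ : xc P ≠ xc Q) :
    xc (P + Q) = ((yc P - yc Q) / (xc P - xc Q)) ^ 2 + W.a₁ * ((yc P - yc Q) / (xc P - xc Q))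
      - W.a₂ - xc P - xc Q := by
  obtain ⟨x, y, h, rfl⟩ := exists_eq_some hP
  obtain ⟨x', y', h', rfl⟩ := exists_eq_some hQ
  simp only [xc_some, yc_some] at hPQ ⊢
  rw [Point.add_of_X_ne hPQ, xc_some, Affine.slope_of_X_ne hPQ, Affine.addX]

lemma xc_sub {P Q : W.Point} (hP : P ≠ 0) (hQ : Q ≠ 0) (hPQ : xc P ≠ xc Q) :
    xc (P - Q) = ((yc P + yc Q + W.a₁ * xc Q + W.a₃) / (xc P - xc Q)) ^ 2
      + W.a₁ * ((yc P + yc Q + W.a₁ * xc Q + W.a₃) / (xc P - xc Q))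
      - W.a₂ - xc P - xc Q := by
  have h := xc_add hP (neg_ne_zero.mpr hQ) (by rwa [xc_neg])
  rw [← sub_eq_add_neg, xc_neg, yc_neg hQ] at h
  rw [h]
  ring_nf

lemma A1 {P Q : W.Point} (hP : P ≠ 0) (hQ : Q ≠ 0) (hPQ : xc P ≠ xc Q) :
    (xc (P + Q) + xc (P - Q)) * (xc P - xc Q) ^ 2 =
      2 * xc P * xc Q * (xc P + xc Q) + W.b₂ * xc P * xc Q + W.b₄ * (xc P + xc Q) + W.b₆ := by
  have h0 : xc P - xc Q ≠ 0 := sub_ne_zero.mpr hPQ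
  rw [xc_add hP hQ hPQ, xc_sub hP hQ hPQ]
  simp only [WeierstrassCurve.b₂, WeierstrassCurve.b₄, WeierstrassCurve.b₆]
  have e1 := equation_of_ne_zero hP
  have e2 := equation_of_ne_zero hQ
  field_simp
  linear_combination 2 * e1 + 2 * e2

lemma A3 {P Q : W.Point} (hP : P ≠ 0) (hQ : Q ≠ 0) (hPQ : xc P ≠ xc Q) :
    (xc (P - Q) - xc (P + Q)) * (xc P - xc Q) ^ 2 = tc P * tc Q := by
  have h0 : xc P - xc Q ≠ 0 := sub_ne_zero.mpr hPQ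
  rw [xc_add hP hQ hPQ, xc_sub hP hQ hPQ, tc, tc]
  field_simp
  ring

omit [DecidableEq F] in
lemma A2_aux (x y x' y' a₁ a₂ a₃ a₄ a₆ : F)
    (e1 : y ^ 2 + a₁ * x * y + a₃ * y = x ^ 3 + a₂ * x ^ 2 + a₄ * x + a₆)
    (e2 : y' ^ 2 + a₁ * x' * y' + a₃ * y' = x' ^ 3 + a₂ * x' ^ 2 + a₄ * x' + a₆) :
    ((y - y')^2 + a₁ * (y-y') * (x - x') - (a₂ + x + x') * (x-x')^2) *
      ((y + y' + a₁ * x' + a₃)^2 + a₁ * (y + y' + a₁ * x' + a₃) * (x - x')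
        - (a₂ + x + x') * (x-x')^2) =
      (x^2*x'^2 - (2 * a₄ + a₁ * a₃) * x * x' - (a₃ ^ 2 + 4 * a₆) * (x + x')
        - (a₁ ^ 2 * a₆ + 4 * a₂ * a₆ - a₁ * a₃ * a₄ + a₂ * a₃ ^ 2 - a₄ ^ 2)) * (x - x')^2 := by
  grind

lemma A2 {P Q : W.Point} (hP : P ≠ 0) (hQ : Q ≠ 0) (hPQ : xc P ≠ xc Q) :
    xc (P + Q) * xc (P - Q) * (xc P - xc Q) ^ 2 =
      xc P ^ 2 * xc Q ^ 2 - W.b₄ * xc P * xc Q - W.b₆ * (xc P + xc Q) - W.b₈ := by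
  have h0 : xc P - xc Q ≠ 0 := sub_ne_zero.mpr hPQ
  rw [xc_add hP hQ hPQ, xc_sub hP hQ hPQ]
  simp only [WeierstrassCurve.b₄, WeierstrassCurve.b₆, WeierstrassCurve.b₈]
  have e1 := equation_of_ne_zero hP
  have e2 := equation_of_ne_zero hQ
  have key := A2_aux (xc P) (yc P) (xc Q) (yc Q) W.a₁ W.a₂ W.a₃ W.a₄ W.a₆ e1 e2
  have hD : (xc P - xc Q) ^ 2 ≠ 0 := pow_ne_zero _ h0
  apply mul_right_cancel₀ hD
  rw [← key]
  field_simp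
  ring

/-- slope of the tangent line -/
lemma xc_two_smul {P : W.Point} (hP : P ≠ 0) (ht : tc P ≠ 0) :
    xc ((2 : ℕ) • P) = ((3 * xc P ^ 2 + 2 * W.a₂ * xc P + W.a₄ - W.a₁ * yc P) / tc P) ^ 2
      + W.a₁ * ((3 * xc P ^ 2 + 2 * W.a₂ * xc P + W.a₄ - W.a₁ * yc P) / tc P)
      - W.a₂ - xc P - xc P := by
  obtain ⟨x, y, h, rfl⟩ := exists_eq_some hP
  have hy : y ≠ W.negY x y := by
    intro hy
    apply ht
    rw [Affine.negY] at hy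
    rw [tc_some]
    linear_combination hy
  rw [two_nsmul, Point.add_self_of_Y_ne hy, xc_some, Affine.slope_of_Y_ne rfl hy, Affine.addX]
  have : y - W.negY x y = tc (Point.some x y h) := by
    rw [tc_some, Affine.negY]; ring
  rw [this]
  simp only [xc_some, yc_some]

lemma yc_two_smul {P : W.Point} (hP : P ≠ 0) (ht : tc P ≠ 0) :
    yc ((2 : ℕ) • P) = -(((3 * xc P ^ 2 + 2 * W.a₂ * xc P + W.a₄ - W.a₁ * yc P) / tc P)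
      * (xc ((2 : ℕ) • P) - xc P) + yc P) - W.a₁ * xc ((2 : ℕ) • P) - W.a₃ := by
  obtain ⟨x, y, h, rfl⟩ := exists_eq_some hP
  have hy : y ≠ W.negY x y := by
    intro hy
    apply ht
    rw [Affine.negY] at hy
    rw [tc_some]
    linear_combination hy
  rw [two_nsmul, Point.add_self_of_Y_ne hy]
  simp only [yc_some, xc_some, Affine.slope_of_Y_ne rfl hy]
  simp only [Affine.addY, Affine.negAddY]
  nth_rewrite 1 [Affine.negY]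
  have : y - W.negY x y = tc (Point.some x y h) := by
    rw [tc_some, Affine.negY]; ring
  rw [this]

omit [DecidableEq F] in
lemma dbl_aux (x y a₁ a₂ a₃ a₄ a₆ : F)
    (e1 : y ^ 2 + a₁ * x * y + a₃ * y = x ^ 3 + a₂ * x ^ 2 + a₄ * x + a₆) :
    (x - (-a₂ - x - x)) * (2 * y + a₁ * x + a₃) ^ 2 -
      ((3 * x ^ 2 + 2 * a₂ * x + a₄ - a₁ * y) ^ 2
      + a₁ * (3 * x ^ 2 + 2 * a₂ * x + a₄ - a₁ * y) * (2 * y + a₁ * x + a₃)) =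
    3 * x ^ 4 + (a₁ ^ 2 + 4 * a₂) * x ^ 3 + 3 * (2 * a₄ + a₁ * a₃) * x ^ 2
      + 3 * (a₃ ^ 2 + 4 * a₆) * x +
      (a₁ ^ 2 * a₆ + 4 * a₂ * a₆ - a₁ * a₃ * a₄ + a₂ * a₃ ^ 2 - a₄ ^ 2) := by
  grind

lemma dbl {P : W.Point} (hP : P ≠ 0) (ht : tc P ≠ 0) :
    (xc P - xc ((2 : ℕ) • P)) * tc P ^ 2 = W.Ψ₃.eval (xc P) := by
  rw [xc_two_smul hP ht]
  have key := dbl_aux (xc P) (yc P) W.a₁ W.a₂ W.a₃ W.a₄ W.a₆ (equation_of_ne_zero hP)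
  have : W.Ψ₃.eval (xc P) = 3 * xc P ^ 4 + (W.a₁ ^ 2 + 4 * W.a₂) * xc P ^ 3
      + 3 * (2 * W.a₄ + W.a₁ * W.a₃) * xc P ^ 2 + 3 * (W.a₃ ^ 2 + 4 * W.a₆) * xc P +
      (W.a₁ ^ 2 * W.a₆ + 4 * W.a₂ * W.a₆ - W.a₁ * W.a₃ * W.a₄ + W.a₂ * W.a₃ ^ 2
        - W.a₄ ^ 2) := by
    simp [WeierstrassCurve.Ψ₃, WeierstrassCurve.b₂, WeierstrassCurve.b₄, WeierstrassCurve.b₆,
      WeierstrassCurve.b₈]
  rw [this, ← key]
  have h2 : (2 * yc P + W.a₁ * xc P + W.a₃) = tc P := rfl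
  rw [h2]
  field_simp
  ring

/-- `x(2P)·ψ₂² = Φ₂`. -/
lemma dbl' {P : W.Point} (hP : P ≠ 0) (ht : tc P ≠ 0) :
    xc ((2 : ℕ) • P) * tc P ^ 2 =
      xc P ^ 4 - W.b₄ * xc P ^ 2 - 2 * W.b₆ * xc P - W.b₈ := by
  have h1 := dbl hP ht
  have h2 := tc_sq hP
  have h3 : W.Ψ₃.eval (xc P) = 3 * xc P ^ 4 + W.b₂ * xc P ^ 3 + 3 * W.b₄ * xc P ^ 2
      + 3 * W.b₆ * xc P + W.b₈ := by
    simp [WeierstrassCurve.Ψ₃]
  rw [h3] at h1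
  linear_combination -h1 + xc P * h2

omit [DecidableEq F] in
lemma tc_dbl_aux (x y a₁ a₂ a₃ a₄ a₆ t n X : F)
    (e1 : y ^ 2 + a₁ * x * y + a₃ * y = x ^ 3 + a₂ * x ^ 2 + a₄ * x + a₆)
    (ht : t = 2 * y + a₁ * x + a₃)
    (hn : n = 3 * x ^ 2 + 2 * a₂ * x + a₄ - a₁ * y)
    (hX : X * t ^ 2 = n ^ 2 + a₁ * n * t - (a₂ + x + x) * t ^ 2) :
    2 * (-(n * (X - x) * t ^ 2 + y * t ^ 3) - a₁ * X * t ^ 3 - a₃ * t ^ 3) + a₁ * X * t ^ 3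
      + a₃ * t ^ 3 =
    2 * x ^ 6 + (a₁ ^ 2 + 4 * a₂) * x ^ 5 + 5 * (2 * a₄ + a₁ * a₃) * x ^ 4
      + 10 * (a₃ ^ 2 + 4 * a₆) * x ^ 3
      + 10 * (a₁ ^ 2 * a₆ + 4 * a₂ * a₆ - a₁ * a₃ * a₄ + a₂ * a₃ ^ 2 - a₄ ^ 2) * x ^ 2
      + ((a₁ ^ 2 + 4 * a₂) * (a₁ ^ 2 * a₆ + 4 * a₂ * a₆ - a₁ * a₃ * a₄ + a₂ * a₃ ^ 2 - a₄ ^ 2)
        - (2 * a₄ + a₁ * a₃) * (a₃ ^ 2 + 4 * a₆)) * x
      + ((2 * a₄ + a₁ * a₃) * (a₁ ^ 2 * a₆ + 4 * a₂ * a₆ - a₁ * a₃ * a₄ + a₂ * a₃ ^ 2 - a₄ ^ 2)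
        - (a₃ ^ 2 + 4 * a₆) ^ 2) := by
  have h1 : 2 * (-(n * (X - x) * t ^ 2 + y * t ^ 3) - a₁ * X * t ^ 3 - a₃ * t ^ 3) + a₁ * X * t ^ 3
      + a₃ * t ^ 3 =
      2 * (-(n * ((n ^ 2 + a₁ * n * t - (a₂ + x + x) * t ^ 2) - x * t ^ 2) + y * t ^ 3)
        - a₁ * (n ^ 2 + a₁ * n * t - (a₂ + x + x) * t ^ 2) * t - a₃ * t ^ 3)
      + a₁ * (n ^ 2 + a₁ * n * t - (a₂ + x + x) * t ^ 2) * t
      + a₃ * t ^ 3 := by
    linear_combination (-2 * n - a₁ * t) * hX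
  rw [h1]
  subst ht hn
  clear h1 hX
  grind

lemma tc_dbl {P : W.Point} (hP : P ≠ 0) (ht : tc P ≠ 0) :
    tc ((2 : ℕ) • P) * tc P ^ 3 = W.preΨ₄.eval (xc P) := by
  have hX := xc_two_smul hP ht
  have hY := yc_two_smul hP ht
  have h1 : xc ((2 : ℕ) • P) * tc P ^ 2 = (3 * xc P ^ 2 + 2 * W.a₂ * xc P + W.a₄ - W.a₁ * yc P) ^ 2
    + W.a₁ * (3 * xc P ^ 2 + 2 * W.a₂ * xc P + W.a₄ - W.a₁ * yc P) * tc P
    - (W.a₂ + xc P + xc P) * tc P ^ 2 := by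
    rw [hX]; field_simp; ring
  have key := tc_dbl_aux (xc P) (yc P) W.a₁ W.a₂ W.a₃ W.a₄ W.a₆ (tc P) _ (xc ((2 : ℕ) • P))
    (equation_of_ne_zero hP) rfl rfl h1
  simp only [WeierstrassCurve.preΨ₄, WeierstrassCurve.b₂, WeierstrassCurve.b₄,
    WeierstrassCurve.b₆, WeierstrassCurve.b₈, eval_add, eval_mul, eval_pow, eval_X, eval_C,
    eval_ofNat]
  rw [← key]
  nth_rewrite 1 [tc]
  rw [hY]
  field_simp

/-- `(x(Q+P) - x(Q)) (x(Q-P) - x(Q)) (x(Q) - x(P))² = ψ₂(Q)² (x(2Q) - x(P))`. -/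
lemma G2 {P Q : W.Point} (hP : P ≠ 0) (hQ : Q ≠ 0) (hPQ : xc Q ≠ xc P) (ht : tc Q ≠ 0) :
    (xc (Q + P) - xc Q) * (xc (Q - P) - xc Q) * (xc Q - xc P) ^ 2 =
      tc Q ^ 2 * (xc ((2 : ℕ) • Q) - xc P) := by
  have h1 := A1 hQ hP hPQ
  have h2 := A2 hQ hP hPQ
  have h3 := dbl' hQ ht
  have h4 := tc_sq hQ
  linear_combination h2 - xc Q * h1 - h3 + xc P * h4

end Fermat.Agent.ECP
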