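import Fermat.Agent.ECP.FreyLocal
import Fermat.Agent.ECP.Count
import Fermat.Agent.Mink.Lift

set_option autoImplicit false

/-!
# A Galois stable line in the `p`-torsion of the Frey curve

Local analysis + Minkowski.
-/

namespace Fermat.Agent.ECP

open WeierstrassCurve WeierstrassCurve.Affine WeierstrassCurve.Affine.Point

section Groups

variable {R S K : Type*} [CommRing R] [CommRing S] [Field K] [DecidableEq K]
  [Algebra R S] [Algebra R K] [Algebra S K] [IsScalarTower R S K] {W' : Affine R}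
  {p : ℕ}

/-- automorphisms acting trivially on `N` -/
def H1 (N : Submodule (ZMod p) (Submodule.torsionBy ℤ (W'⁄K).Point p)) :
    Subgroup (K ≃ₐ[S] K) where
  carrier := {σ | ∀ x ∈ N, σ • x = x}
  one_mem' := fun x _ => one_smul _ x
  mul_mem' := by
    intro σ τ hσ hτ x hx
    rw [mul_smul, hτ x hx, hσ x hx]
  inv_mem' := by
    intro σ hσ x hx
    conv_lhs => rw [← hσ x hx]
    rw [inv_smul_smul]

/-- automorphisms acting trivially on `E[p]/N` -/
def H2 (N : Submodule (ZMod p) (Submodule.torsionBy ℤ (W'⁄K).Point p)) :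
    Subgroup (K ≃ₐ[S] K) where
  carrier := {σ | ∀ x, σ • x - x ∈ N}
  one_mem' := fun x => by rw [one_smul, sub_self]; exact zero_mem _
  mul_mem' := by
    intro σ τ hσ hτ x
    have h1 := add_mem (hσ (τ • x)) (hτ x)
    rwa [sub_add_sub_cancel, ← mul_smul] at h1
  inv_mem' := by
    intro σ hσ x
    have h1 := neg_mem (hσ (σ⁻¹ • x))
    rwa [smul_inv_smul, neg_sub] at h1

lemma mem_H1_iff {N : Submodule (ZMod p) (Submodule.torsionBy ℤ (W'⁄K).Point p)}
    {σ : K ≃ₐ[S] K} : σ ∈ H1 (S := S) N ↔ ∀ x ∈ N, σ • x = x := Iff.rfl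

lemma mem_H2_iff {N : Submodule (ZMod p) (Submodule.torsionBy ℤ (W'⁄K).Point p)}
    {σ : K ≃ₐ[S] K} : σ ∈ H2 (S := S) N ↔ ∀ x, σ • x - x ∈ N := Iff.rfl

lemma H1_normal {N : Submodule (ZMod p) (Submodule.torsionBy ℤ (W'⁄K).Point p)}
    (hN : IsGaloisStable S N) : (H1 (S := S) N).Normal := by
  constructor
  intro σ hσ g
  rw [mem_H1_iff] at hσ ⊢
  intro x hx
  rw [mul_smul, mul_smul, hσ _ (hN g⁻¹ x hx), smul_inv_smul]

lemma H2_normal {N : Submodule (ZMod p) (Submodule.torsionBy ℤ (W'⁄K).Point p)}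
    (hN : IsGaloisStable S N) : (H2 (S := S) N).Normal := by
  constructor
  intro σ hσ g
  rw [mem_H2_iff] at hσ ⊢
  intro x
  have h1 := hN g _ (hσ (g⁻¹ • x))
  rwa [smul_sub, smul_inv_smul, ← mul_smul, ← mul_smul] at h1

end Groups

section Qbar

local notation "Qb" => AlgebraicClosure ℚ

variable {W' : Affine ℚ} {p : ℕ}

/-- the field generated by the coordinates of the `p`-torsion points. -/
noncomputable def torsField (W' : Affine ℚ) (p : ℕ) : IntermediateField ℚ Qb :=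
  IntermediateField.adjoin ℚ
    (Set.range (fun x : Submodule.torsionBy ℤ (W'⁄Qb).Point p => xc (x : (W'⁄Qb).Point)) ∪
     Set.range (fun x : Submodule.torsionBy ℤ (W'⁄Qb).Point p => yc (x : (W'⁄Qb).Point)))

instance torsField_finite [Finite (Submodule.torsionBy ℤ (W'⁄Qb).Point p)] :
    FiniteDimensional ℚ (torsField W' p) := by
  unfold torsField
  have : Finite ↑(Set.range (fun x : Submodule.torsionBy ℤ (W'⁄Qb).Point p =>
      xc (x : (W'⁄Qb).Point)) ∪
     Set.range (fun x : Submodule.torsionBy ℤ (W'⁄Qb).Point p => yc (x : (W'⁄Qb).Point))) :=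
    ((Set.finite_range _).union (Set.finite_range _)).to_subtype
  apply IntermediateField.finiteDimensional_adjoin
  intro x _
  exact Algebra.IsIntegral.isIntegral x

lemma smul_eq_of_mem_fixingSubgroup {σ : Qb ≃ₐ[ℚ] Qb}
    (hσ : σ ∈ (torsField W' p).fixingSubgroup)
    (x : Submodule.torsionBy ℤ (W'⁄Qb).Point p) : σ • x = x := by
  rw [IntermediateField.mem_fixingSubgroup_iff] at hσ
  apply Subtype.ext
  change σ • (x : (W'⁄Qb).Point) = x
  by_cases hx : (x : (W'⁄Qb).Point) = 0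
  · rw [hx]; rfl
  · have hσx : σ • (x : (W'⁄Qb).Point) ≠ 0 := fun h => hx ((smul_eq_zero_iff_eq σ).mp h)
    refine ext_xy hσx hx ?_ ?_
    · rw [xc_smul σ hx]
      exact hσ _ (IntermediateField.subset_adjoin _ _ (Or.inl ⟨x, rfl⟩))
    · have : yc (σ • (x : (W'⁄Qb).Point)) = σ (yc (x : (W'⁄Qb).Point)) := by
        obtain ⟨a, b, h, hab⟩ := exists_eq_some hx
        rw [hab]; rfl
      rw [this]
      exact hσ _ (IntermediateField.subset_adjoin _ _ (Or.inr ⟨x, rfl⟩))

lemma torsField_le_H1 (N : Submodule (ZMod p) (Submodule.torsionBy ℤ (W'⁄Qb).Point p)) :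
    (torsField W' p).fixingSubgroup ≤ H1 (S := ℚ) N := fun _ hσ x _ =>
  smul_eq_of_mem_fixingSubgroup hσ x

lemma torsField_le_H2 (N : Submodule (ZMod p) (Submodule.torsionBy ℤ (W'⁄Qb).Point p)) :
    (torsField W' p).fixingSubgroup ≤ H2 (S := ℚ) N := fun _ hσ x => by
  rw [smul_eq_of_mem_fixingSubgroup hσ x, sub_self]; exact zero_mem _

/-- Minkowski for `H₁`, `H₂`. -/
theorem eq_top_of_inertia_le_tors [Finite (Submodule.torsionBy ℤ (W'⁄Qb).Point p)]
    (H : Subgroup (Qb ≃ₐ[ℚ] Qb)) (hH : H.Normal)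
    (hE : (torsField W' p).fixingSubgroup ≤ H)
    (hin : ∀ ℓ : ℕ, ℓ.Prime → ∀ A : ValuationSubring Qb, A.LiesOverPrime ℓ →
      A.inertiaSubgroupIn ℚ ≤ H) : H = ⊤ :=
  Mink.eq_top_of_inertia_le' H (torsField W' p) hE hin

end Qbar

section Frey

local notation "Qb" => AlgebraicClosure ℚ

/-- a stable line is either pointwise fixed or has trivial quotient (Frey curve). -/
theorem frey_line_dichotomy (P : FreyPackage)
    [Finite (Submodule.torsionBy ℤ (P.freyCurve⁄Qb).Point P.p)]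
    (hcard : Nat.card (Submodule.torsionBy ℤ (P.freyCurve⁄Qb).Point P.p) ≤ P.p ^ 2)
    (hunr : ∀ q : ℕ, q.Prime → q ≠ 2 → q ≠ P.p → P.GaloisRepUnramifiedAt q)
    {N : Submodule (ZMod P.p) (Submodule.torsionBy ℤ (P.freyCurve⁄Qb).Point P.p)}
    (hbot : N ≠ ⊥) (htop : N ≠ ⊤) (hN : IsGaloisStable ℚ N) :
    (∀ σ : Qb ≃ₐ[ℚ] Qb, ∀ x ∈ N, σ • x = x) ∨
      (∀ σ : Qb ≃ₐ[ℚ] Qb, ∀ x, σ • x - x ∈ N) := by
  have hfact : Fact P.p.Prime := ⟨P.pp⟩
  have hp5 := P.hp5
  -- inertia at `2` acts trivially on `N` and the quotient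
  have h2 : ∀ A : ValuationSubring Qb, A.LiesOverPrime 2 → ∀ σ ∈ A.inertiaSubgroupIn ℚ,
      (∀ x ∈ N, σ • x = x) ∧ (∀ x, σ • x - x ∈ N) := by
    intro A hA σ hσ
    obtain ⟨E0, h1, h⟩ := frey_local P Nat.prime_two hA
    obtain ⟨h2, h3⟩ := h σ hσ
    refine trivial_on_both hcard hbot htop hN σ E0 _ h2 h3 ?_
    intro x hx
    have hvp : A.valuation ((P.p : ℕ) : Qb) = 1 := by
      refine val_nat_eq_one_of_not_dvd (v := A.valuation) Nat.prime_two
        (A.mem_nonunits_iff.mp hA) ?_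
      intro hd
      have := (Nat.prime_dvd_prime_iff_eq Nat.prime_two P.pp).mp hd
      omega
    have := (frey_isInt P A.valuation).eq_zero_of_inE1 ((mem_E1_iff _).mp hx) hvp
      (nsmul_coe_eq_zero x)
    exact Subtype.ext this
  obtain ⟨r, hr⟩ := lineC_rational hN
  by_cases hd : P.p ∣ r.den
  · -- `E₁[p] = N`
    right
    have htopH : H2 (S := ℚ) N = ⊤ := by
      refine eq_top_of_inertia_le_tors _ (H2_normal hN) (torsField_le_H2 N) ?_
      intro ℓ hℓ A hA σ hσ
      rw [mem_H2_iff]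
      by_cases hℓ2 : ℓ = 2
      · subst hℓ2
        exact (h2 A hA σ hσ).2
      by_cases hℓp : ℓ = P.p
      · subst hℓp
        have hvp : A.valuation ((P.p : ℕ) : Qb) < 1 := A.mem_nonunits_iff.mp hA
        obtain ⟨E0, h1, h⟩ := frey_local P hℓ hA
        obtain ⟨h2, h3⟩ := h σ hσ
        refine trivial_on_quot hcard hbot htop σ E0 _ h1 h2 h3 ?_
        refine mem_E1_iff_mem_line (by omega) hvp _ hcard hbot htop hN ?_
        rw [← hr, ← not_le, val_rat_le_one_iff P.pp hvp r]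
        exact fun h => h hd
      · intro x
        have e : σ • x = x := hunr ℓ hℓ hℓ2 hℓp A hA σ hσ x
        have e2 : σ • x - x = 0 := sub_eq_zero.mpr e
        rw [e2]
        exact zero_mem _
    intro σ x
    have : σ ∈ H2 (S := ℚ) N := by rw [htopH]; exact Subgroup.mem_top _
    exact this x
  · left
    have htopH : H1 (S := ℚ) N = ⊤ := by
      refine eq_top_of_inertia_le_tors _ (H1_normal hN) (torsField_le_H1 N) ?_
      intro ℓ hℓ A hA σ hσ
      rw [mem_H1_iff]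
      by_cases hℓ2 : ℓ = 2
      · subst hℓ2
        exact (h2 A hA σ hσ).1
      by_cases hℓp : ℓ = P.p
      · subst hℓp
        have hvp : A.valuation ((P.p : ℕ) : Qb) < 1 := A.mem_nonunits_iff.mp hA
        obtain ⟨E0, h1, h⟩ := frey_local P hℓ hA
        obtain ⟨h2, h3⟩ := h σ hσ
        refine trivial_on_line hcard hbot htop hN σ E0 _ h2 h3 ?_
        refine eq_zero_of_mem_E1 _ hcard hbot htop ?_
        rw [← hr, val_rat_le_one_iff P.pp hvp r]
        exact hd
      · intro x _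
        exact hunr ℓ hℓ hℓ2 hℓp A hA σ hσ x
    intro σ x hx
    have : σ ∈ H1 (S := ℚ) N := by rw [htopH]; exact Subgroup.mem_top _
    exact this x hx

end Frey

end Fermat.Agent.ECP
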