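import Fermat.Agent.ECP.PointX

/-!
# Torsion points and division polynomials
-/

set_option autoImplicit false

namespace Fermat.Agent.ECP

open WeierstrassCurve WeierstrassCurve.Affine WeierstrassCurve.Affine.Point Polynomial

universe u

variable {F : Type u} [Field F] {W : WeierstrassCurve.Affine F}

/-- the value of the `n`-th division polynomial at `P` (for `P ≠ 0`). -/
noncomputable def wc (P : W.Point) (n : ℤ) : F :=
  normEDS (tc P) (W.Ψ₃.eval (xc P)) (W.preΨ₄.eval (xc P)) n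

lemma wc_zero (P : W.Point) : wc P 0 = 0 := normEDS_zero ..
lemma wc_one (P : W.Point) : wc P 1 = 1 := normEDS_one ..
lemma wc_two (P : W.Point) : wc P 2 = tc P := normEDS_two ..
lemma wc_three (P : W.Point) : wc P 3 = W.Ψ₃.eval (xc P) := normEDS_three ..
lemma wc_four (P : W.Point) : wc P 4 = W.preΨ₄.eval (xc P) * tc P := normEDS_four ..

lemma wc_even (P : W.Point) (m : ℤ) : wc P (2 * m) * tc P =
    wc P (m - 1) ^ 2 * wc P m * wc P (m + 2) - wc P (m - 2) * wc P m * wc P (m + 1) ^ 2 :=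
  normEDS_even ..

lemma wc_odd (P : W.Point) (m : ℤ) : wc P (2 * m + 1) =
    wc P (m + 2) * wc P m ^ 3 - wc P (m - 1) * wc P (m + 1) ^ 3 :=
  normEDS_odd ..

lemma wc_eq_preΨ' {P : W.Point} (hP : P ≠ 0) (n : ℕ) :
    wc P n = (W.preΨ' n).eval (xc P) * if Even n then tc P else 1 := by
  rw [wc, normEDS_ofNat, WeierstrassCurve.preΨ']
  congr 1
  have h := map_preNormEDS' (Polynomial.evalRingHom (xc P)) (W.Ψ₂Sq ^ 2) W.Ψ₃ W.preΨ₄ n
  simp only [Polynomial.coe_evalRingHom] at h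
  rw [h, eval_pow, ← tc_sq' hP]
  congr 1
  ring

variable [DecidableEq F]

section
variable {P : W.Point}

lemma nd_one : wc P 1 ≠ 0 ∧ (xc P - xc ((1 : ℕ) • P)) * wc P 1 ^ 2 = wc P (1 + 1) * wc P (1 - 1) := by
  rw [wc_one, one_nsmul]
  simp [wc_zero]

lemma nd_two (h1 : P ≠ 0) (h2 : (2 : ℕ) • P ≠ 0) :
    wc P 2 ≠ 0 ∧ (xc P - xc ((2 : ℕ) • P)) * wc P 2 ^ 2 = wc P (2 + 1) * wc P (2 - 1) := by
  have ht : tc P ≠ 0 := fun h => h2 ((two_smul_eq_zero_iff h1).mpr h)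
  norm_num
  rw [wc_two, wc_three, wc_one]
  exact ⟨ht, by rw [dbl h1 ht, mul_one]⟩

lemma xc_ne_of_add_sub {P Q : W.Point} (hP : P ≠ 0) (hQ : Q ≠ 0) (h1 : P + Q ≠ 0)
    (h2 : P - Q ≠ 0) : xc P ≠ xc Q := by
  intro h
  rcases (xc_eq_iff hP hQ).mp h with h | h
  · exact h2 (sub_eq_zero.mpr h)
  · exact h1 (by rw [h]; exact neg_add_cancel Q)

lemma nd_three (h1 : P ≠ 0) (h2 : (2 : ℕ) • P ≠ 0) (h3 : (3 : ℕ) • P ≠ 0) :
    wc P 3 ≠ 0 ∧ (xc P - xc ((3 : ℕ) • P)) * wc P 3 ^ 2 = wc P (3 + 1) * wc P (3 - 1) := by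
  have ht : tc P ≠ 0 := fun h => h2 ((two_smul_eq_zero_iff h1).mpr h)
  have hx : xc ((2 : ℕ) • P) ≠ xc P := by
    apply xc_ne_of_add_sub h2 h1
    · intro h; apply h3; rw [← h]; module
    · intro h; apply h1; rw [← h]; module
  have hA := A3 h2 h1 hx
  have e1 : (2 : ℕ) • P - P = P := by module
  have e2 : (2 : ℕ) • P + P = (3 : ℕ) • P := by module
  rw [e1, e2] at hA
  norm_num
  rw [wc_three, wc_four, wc_two, ← dbl h1 ht, ← tc_dbl h1 ht]
  constructor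
  · exact mul_ne_zero (sub_ne_zero.mpr hx.symm) (pow_ne_zero _ ht)
  · linear_combination (tc P ^ 4) * hA

/-- even step -/
lemma nd_even (m : ℕ) (hm : 2 ≤ m) (h1 : P ≠ 0) (h2 : (2 : ℕ) • P ≠ 0)
    (hm0 : m • P ≠ 0) (hm1 : (m - 1) • P ≠ 0) (hp1 : (m + 1) • P ≠ 0) (h2m : (2 * m) • P ≠ 0)
    (im0 : wc P m ≠ 0 ∧ (xc P - xc (m • P)) * wc P m ^ 2 = wc P (m + 1) * wc P (m - 1))
    (im1 : wc P (m - 1 : ℤ) ≠ 0 ∧
      (xc P - xc ((m - 1) • P)) * wc P (m - 1 : ℤ) ^ 2 = wc P m * wc P (m - 2))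
    (ip1 : wc P (m + 1 : ℤ) ≠ 0 ∧
      (xc P - xc ((m + 1) • P)) * wc P (m + 1 : ℤ) ^ 2 = wc P (m + 2) * wc P m) :
    wc P (2 * m : ℤ) ≠ 0 ∧ (xc P - xc ((2 * m) • P)) * wc P (2 * m : ℤ) ^ 2 =
      wc P (2 * m + 1) * wc P (2 * m - 1) := by
  have ht : tc P ≠ 0 := fun h => h2 ((two_smul_eq_zero_iff h1).mpr h)
  have htm : tc (m • P) ≠ 0 := fun h => h2m (by
    rw [mul_nsmul']; exact (two_smul_eq_zero_iff hm0).mpr h)
  have e1 : m • P - P = (m - 1) • P := by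
    obtain ⟨k, rfl⟩ : ∃ k, m = k + 1 := ⟨m - 1, by omega⟩
    rw [Nat.add_sub_cancel]; module
  have e2 : m • P + P = (m + 1) • P := by module
  have hxm : xc (m • P) ≠ xc P := xc_ne_of_add_sub hm0 h1 (by rwa [e2]) (by rwa [e1])
  have hx2 : xc ((m - 1) • P) ≠ xc ((m + 1) • P) := by
    apply xc_ne_of_add_sub hm1 hp1
    · obtain ⟨k, rfl⟩ : ∃ k, m = k + 1 := ⟨m - 1, by omega⟩
      rw [Nat.add_sub_cancel]
      intro h; apply h2m; rw [← h]; module
    · obtain ⟨k, rfl⟩ : ∃ k, m = k + 1 := ⟨m - 1, by omega⟩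
      rw [Nat.add_sub_cancel]
      intro h; apply h2; rw [← neg_eq_zero, ← h]; module
  have hA := A3 hm0 h1 hxm
  rw [e1, e2] at hA
  have hG := G2 h1 hm0 hxm htm
  rw [e1, e2, ← mul_nsmul'] at hG
  have hE := wc_even P m
  have hO := wc_odd P m
  have hO' := wc_odd P (m - 1)
  have c1 : (m : ℤ) - 1 + 2 = m + 1 := by ring
  have c2 : (m : ℤ) - 1 - 1 = m - 2 := by ring
  have c3 : (m : ℤ) - 1 + 1 = m := by ring
  have c4 : 2 * ((m : ℤ) - 1) + 1 = 2 * m - 1 := by ring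
  rw [c1, c2, c3, c4] at hO'
  obtain ⟨nm0, im0⟩ := im0
  obtain ⟨nm1, im1⟩ := im1
  obtain ⟨np1, ip1⟩ := ip1
  -- rewrite everything in terms of x-coordinates
  set a := wc P (m - 1 : ℤ) with ha
  set b := wc P (m : ℤ) with hb
  set c := wc P (m + 1 : ℤ) with hc
  have E : wc P (2 * m) * tc P = (xc ((m - 1) • P) - xc ((m + 1) • P)) * a ^ 2 * c ^ 2 := by
    rw [hE]; linear_combination (-a ^ 2) * ip1 + c ^ 2 * im1
  have O : wc P (2 * m + 1) = (xc (m • P) - xc ((m + 1) • P)) * b ^ 2 * c ^ 2 := by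
    rw [hO]; linear_combination (-b ^ 2) * ip1 + c ^ 2 * im0
  have O' : wc P (2 * m - 1) = (xc ((m - 1) • P) - xc (m • P)) * b ^ 2 * a ^ 2 := by
    rw [hO']; linear_combination (-a ^ 2) * im0 + b ^ 2 * im1
  have hne : wc P (2 * m) ≠ 0 := by
    intro h
    rw [h, zero_mul] at E
    have : (xc ((m - 1) • P) - xc ((m + 1) • P)) * a ^ 2 * c ^ 2 ≠ 0 :=
      mul_ne_zero (mul_ne_zero (sub_ne_zero.mpr hx2) (pow_ne_zero _ nm1)) (pow_ne_zero _ np1)
    exact this E.symm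
  refine ⟨hne, ?_⟩
  rw [O, O']
  have hd : xc P - xc (m • P) ≠ 0 := sub_ne_zero.mpr hxm.symm
  have key : ((xc P - xc ((2 * m) • P)) * wc P (2 * m) ^ 2) * (tc P ^ 2 * (xc P - xc (m • P)) ^ 2)
      = ((xc (m • P) - xc ((m + 1) • P)) * b ^ 2 * c ^ 2 *
        ((xc ((m - 1) • P) - xc (m • P)) * b ^ 2 * a ^ 2)) * (tc P ^ 2 * (xc P - xc (m • P)) ^ 2) := by
    have s1 : ((xc P - xc ((2 * m) • P)) * wc P (2 * m) ^ 2) * (tc P ^ 2 * (xc P - xc (m • P)) ^ 2)
      = (xc P - xc ((2 * m) • P)) * ((xc ((m - 1) • P) - xc ((m + 1) • P)) * a ^ 2 * c ^ 2) ^ 2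
        * (xc P - xc (m • P)) ^ 2 := by
      rw [← E]; ring
    rw [s1]
    have s2 : (xc P - xc ((2 * m) • P)) * ((xc ((m - 1) • P) - xc ((m + 1) • P)) * a ^ 2 * c ^ 2) ^ 2
        * (xc P - xc (m • P)) ^ 2 = (xc P - xc ((2 * m) • P)) *
        ((xc ((m - 1) • P) - xc ((m + 1) • P)) * (xc (m • P) - xc P) ^ 2) ^ 2 * b ^ 4 *
          (a ^ 2 * c ^ 2) := by
      have : (c * a) ^ 2 = ((xc P - xc (m • P)) * b ^ 2) ^ 2 := by rw [im0]
      linear_combination ((xc P - xc ((2 * m) • P)) *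
        (xc ((m - 1) • P) - xc ((m + 1) • P)) ^ 2 * (xc P - xc (m • P)) ^ 2 * (a * c) ^ 2) * this
    rw [s2, hA]
    linear_combination (tc P ^ 2 * b ^ 4 * a ^ 2 * c ^ 2) * hG
  exact mul_right_cancel₀ (mul_ne_zero (pow_ne_zero _ ht) (pow_ne_zero _ hd)) key

/-- odd step -/
lemma nd_odd (m : ℕ) (hm : 2 ≤ m) (h1 : P ≠ 0) (h2 : (2 : ℕ) • P ≠ 0)
    (hm0 : m • P ≠ 0) (hm1 : (m - 1) • P ≠ 0) (hp1 : (m + 1) • P ≠ 0) (hp2 : (m + 2) • P ≠ 0)
    (h2m : (2 * m + 1) • P ≠ 0)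
    (im0 : wc P m ≠ 0 ∧ (xc P - xc (m • P)) * wc P m ^ 2 = wc P (m + 1) * wc P (m - 1))
    (im1 : wc P (m - 1 : ℤ) ≠ 0 ∧
      (xc P - xc ((m - 1) • P)) * wc P (m - 1 : ℤ) ^ 2 = wc P m * wc P (m - 2))
    (ip1 : wc P (m + 1 : ℤ) ≠ 0 ∧
      (xc P - xc ((m + 1) • P)) * wc P (m + 1 : ℤ) ^ 2 = wc P (m + 2) * wc P m)
    (ip2 : wc P (m + 2 : ℤ) ≠ 0 ∧
      (xc P - xc ((m + 2) • P)) * wc P (m + 2 : ℤ) ^ 2 = wc P (m + 3) * wc P (m + 1)) :
    wc P (2 * m + 1 : ℤ) ≠ 0 ∧ (xc P - xc ((2 * m + 1) • P)) * wc P (2 * m + 1 : ℤ) ^ 2 =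
      wc P (2 * m + 2) * wc P (2 * m) := by
  have ht : tc P ≠ 0 := fun h => h2 ((two_smul_eq_zero_iff h1).mpr h)
  have e1 : m • P - P = (m - 1) • P := by
    obtain ⟨k, rfl⟩ : ∃ k, m = k + 1 := ⟨m - 1, by omega⟩
    rw [Nat.add_sub_cancel]; module
  have e2 : m • P + P = (m + 1) • P := by module
  have e3 : (m + 1) • P + P = (m + 2) • P := by module
  have e4 : (m + 1) • P - P = m • P := by module
  have e5 : (m + 1) • P + m • P = (2 * m + 1) • P := by module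
  have e6 : (m + 1) • P - m • P = P := by module
  have hxm : xc (m • P) ≠ xc P := xc_ne_of_add_sub hm0 h1 (by rwa [e2]) (by rwa [e1])
  have hxp : xc ((m + 1) • P) ≠ xc P := xc_ne_of_add_sub hp1 h1 (by rwa [e3]) (by rwa [e4])
  have hxx : xc ((m + 1) • P) ≠ xc (m • P) := xc_ne_of_add_sub hp1 hm0 (by rwa [e5]) (by rwa [e6])
  have hA := A3 hm0 h1 hxm
  rw [e1, e2] at hA
  have hB := A3 hp1 h1 hxp
  rw [e3, e4] at hB
  have hC := A3 hp1 hm0 hxx
  rw [e5, e6] at hC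
  have hE := wc_even P m
  have hE' := wc_even P (m + 1)
  have hO := wc_odd P m
  have c1 : (m : ℤ) + 1 - 1 = m := by ring
  have c2 : (m : ℤ) + 1 - 2 = m - 1 := by ring
  have c3 : (m : ℤ) + 1 + 2 = m + 3 := by ring
  have c4 : (m : ℤ) + 1 + 1 = m + 2 := by ring
  have c5 : 2 * ((m : ℤ) + 1) = 2 * m + 2 := by ring
  rw [c1, c2, c3, c4, c5] at hE'
  obtain ⟨nm0, im0⟩ := im0
  obtain ⟨nm1, im1⟩ := im1
  obtain ⟨np1, ip1⟩ := ip1
  obtain ⟨np2, ip2⟩ := ip2
  set a := wc P (m - 1 : ℤ) with ha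
  set b := wc P (m : ℤ) with hb
  set c := wc P (m + 1 : ℤ) with hc
  set d := wc P (m + 2 : ℤ) with hd
  have E : wc P (2 * m) * tc P = (xc ((m - 1) • P) - xc ((m + 1) • P)) * a ^ 2 * c ^ 2 := by
    rw [hE]; linear_combination (-a ^ 2) * ip1 + c ^ 2 * im1
  have E' : wc P (2 * m + 2) * tc P = (xc (m • P) - xc ((m + 2) • P)) * b ^ 2 * d ^ 2 := by
    rw [hE']; linear_combination (-b ^ 2) * ip2 + d ^ 2 * im0
  have O : wc P (2 * m + 1) = (xc (m • P) - xc ((m + 1) • P)) * b ^ 2 * c ^ 2 := by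
    rw [hO]; linear_combination (-b ^ 2) * ip1 + c ^ 2 * im0
  have hne : wc P (2 * m + 1) ≠ 0 := by
    rw [O]
    exact mul_ne_zero (mul_ne_zero (sub_ne_zero.mpr hxx.symm) (pow_ne_zero _ nm0))
      (pow_ne_zero _ np1)
  refine ⟨hne, ?_⟩
  have key : ((xc P - xc ((2 * m + 1) • P)) * wc P (2 * m + 1) ^ 2) * tc P ^ 2
      = (wc P (2 * m + 2) * wc P (2 * m)) * tc P ^ 2 := by
    have r : (wc P (2 * m + 2) * wc P (2 * m)) * tc P ^ 2 =
      ((xc (m • P) - xc ((m + 2) • P)) * b ^ 2 * d ^ 2) *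
        ((xc ((m - 1) • P) - xc ((m + 1) • P)) * a ^ 2 * c ^ 2) := by
      rw [← E, ← E']; ring
    have s1 : (c * a) ^ 2 = ((xc P - xc (m • P)) * b ^ 2) ^ 2 := by rw [im0]
    have s2 : (d * b) ^ 2 = ((xc P - xc ((m + 1) • P)) * c ^ 2) ^ 2 := by rw [ip1]
    have r2 : ((xc (m • P) - xc ((m + 2) • P)) * b ^ 2 * d ^ 2) *
        ((xc ((m - 1) • P) - xc ((m + 1) • P)) * a ^ 2 * c ^ 2) =
        ((xc (m • P) - xc ((m + 2) • P)) * (xc ((m + 1) • P) - xc P) ^ 2) *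
        ((xc ((m - 1) • P) - xc ((m + 1) • P)) * (xc (m • P) - xc P) ^ 2) * b ^ 4 * c ^ 4 := by
      linear_combination ((xc (m • P) - xc ((m + 2) • P)) *
        (xc ((m - 1) • P) - xc ((m + 1) • P)) * (d * b) ^ 2) * s1 +
        ((xc (m • P) - xc ((m + 2) • P)) *
        (xc ((m - 1) • P) - xc ((m + 1) • P)) * ((xc P - xc (m • P)) * b ^ 2) ^ 2) * s2
    rw [r, r2, hA, hB, O]
    linear_combination (b ^ 4 * c ^ 4 * tc P ^ 2) * hC
  exact mul_right_cancel₀ (pow_ne_zero _ ht) key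

end

theorem nd {P : W.Point} (N : ℕ) (hN : ∀ n : ℕ, 1 ≤ n → n ≤ N → n • P ≠ 0) :
    ∀ n : ℕ, 1 ≤ n → n ≤ N →
      wc P n ≠ 0 ∧ (xc P - xc (n • P)) * wc P n ^ 2 = wc P (n + 1) * wc P (n - 1) := by
  intro n
  induction n using Nat.strong_induction_on with
  | _ n ih =>
    intro hn1 hnN
    have h1 : P ≠ 0 := by simpa using hN 1 le_rfl (by omega)
    rcases Nat.lt_or_ge n 4 with h | h
    · interval_cases n
      · exact_mod_cast nd_one (P := P)
      · exact_mod_cast nd_two h1 (hN 2 (by norm_num) hnN)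
      · exact_mod_cast nd_three h1 (hN 2 (by norm_num) (by omega)) (hN 3 (by norm_num) hnN)
    · rcases Nat.even_or_odd' n with ⟨m, rfl | rfl⟩
      · have i0 := ih m (by omega) (by omega) (by omega)
        have i1 := ih (m - 1) (by omega) (by omega) (by omega)
        have i2 := ih (m + 1) (by omega) (by omega) (by omega)
        have := nd_even (P := P) m (by omega) h1 (hN 2 (by omega) (by omega))
          (hN m (by omega) (by omega)) (hN (m - 1) (by omega) (by omega))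
          (hN (m + 1) (by omega) (by omega)) (hN (2 * m) (by omega) (by omega)) i0
          (by
            have hc : ((m - 1 : ℕ) : ℤ) = (m : ℤ) - 1 := by omega
            rw [hc] at i1
            have c1 : (m : ℤ) - 1 + 1 = m := by ring
            have c2 : (m : ℤ) - 1 - 1 = m - 2 := by ring
            rwa [c1, c2] at i1)
          (by
            push_cast at i2
            have c1 : (m : ℤ) + 1 + 1 = m + 2 := by ring
            have c2 : (m : ℤ) + 1 - 1 = m := by ring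
            rwa [c1, c2] at i2)
        push_cast
        exact this
      · have i0 := ih m (by omega) (by omega) (by omega)
        have i1 := ih (m - 1) (by omega) (by omega) (by omega)
        have i2 := ih (m + 1) (by omega) (by omega) (by omega)
        have i3 := ih (m + 2) (by omega) (by omega) (by omega)
        have := nd_odd (P := P) m (by omega) h1 (hN 2 (by omega) (by omega))
          (hN m (by omega) (by omega)) (hN (m - 1) (by omega) (by omega))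
          (hN (m + 1) (by omega) (by omega)) (hN (m + 2) (by omega) (by omega))
          (hN (2 * m + 1) (by omega) (by omega)) i0
          (by
            have hc : ((m - 1 : ℕ) : ℤ) = (m : ℤ) - 1 := by omega
            rw [hc] at i1
            have c1 : (m : ℤ) - 1 + 1 = m := by ring
            have c2 : (m : ℤ) - 1 - 1 = m - 2 := by ring
            rwa [c1, c2] at i1)
          (by
            push_cast at i2
            have c1 : (m : ℤ) + 1 + 1 = m + 2 := by ring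
            have c2 : (m : ℤ) + 1 - 1 = m := by ring
            rwa [c1, c2] at i2)
          (by
            push_cast at i3
            have c1 : (m : ℤ) + 2 + 1 = m + 3 := by ring
            have c2 : (m : ℤ) + 2 - 1 = m + 1 := by ring
            rwa [c1, c2] at i3)
        push_cast
        have c1 : 2 * (m : ℤ) + 1 + 1 = 2 * m + 2 := by ring
        have c2 : 2 * (m : ℤ) + 1 - 1 = 2 * m := by ring
        rw [c1, c2]
        exact this

/-- If `n` is the exact order of `P` (`n ≥ 2`) then the `n`-th division polynomial vanishes. -/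
theorem wc_eq_zero_of_order {P : W.Point} (n : ℕ) (hn2 : 2 ≤ n)
    (hlt : ∀ k : ℕ, 1 ≤ k → k < n → k • P ≠ 0) (hn : n • P = 0) : wc P n = 0 := by
  have h1 : P ≠ 0 := by simpa using hlt 1 le_rfl (by omega)
  rcases Nat.lt_or_ge n 3 with h | h
  · interval_cases n
    rw [Nat.cast_ofNat, wc_two]
    exact (two_smul_eq_zero_iff h1).mp hn
  · have key := nd (n - 1) (fun k h1 h2 => hlt k h1 (by omega)) (n - 1) (by omega) le_rfl
    have key2 := nd (n - 1) (fun k h1 h2 => hlt k h1 (by omega)) (n - 2) (by omega) (by omega)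
    have e : (n - 1) • P = -P := by
      rw [eq_neg_iff_add_eq_zero, ← hn]
      obtain ⟨k, rfl⟩ : ∃ k, n = k + 1 := ⟨n - 1, by omega⟩
      rw [Nat.add_sub_cancel]; module
    have c1 : ((n - 1 : ℕ) : ℤ) + 1 = n := by omega
    have c2 : ((n - 1 : ℕ) : ℤ) - 1 = ((n - 2 : ℕ) : ℤ) := by omega
    rw [e, xc_neg, sub_self, zero_mul, c1, c2] at key
    exact (mul_eq_zero.mp key.2.symm).resolve_right key2.1

end Fermat.Agent.ECP
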